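import Mathlib
import Fermat.Prelude.Def_ModularCurve_PeriodHomPair
import Fermat.Prelude.Thm_Subgroup_IsArithmetic_exists_nat_mem_strictPeriods_conj
import Fermat.Prelude.Thm_CongruenceSubgroup_one_mem_strictPeriods_Gamma0
import Fermat.Agent.S22.Tower
import Fermat.Agent.Lib.EichlerInj

set_option autoImplicit false

namespace Fermat.Agent.S21

open Complex Filter Topology
open UpperHalfPlane hiding I
open scoped MatrixGroups ModularForm Manifold
open CongruenceSubgroup ModularCurve ModularCurve.Period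
open Fermat.Agent.S22.Tower Fermat.Agent.Lib.EichlerInj

variable (N : ℕ) [NeZero N]

/-- A primitive of a weight-two cusp form, vanishing at `i∞`. -/
theorem exists_prim (f : CuspForm (Gamma0 N) 2) :
    ∃ F : ℍ → ℂ, MDiff F ∧ IsZeroAtImInfty F ∧
      ∀ τ : ℍ, HasDerivAt (F ∘ ofComplex) (f τ) τ := by
  have hper : Function.Periodic ((f : ℍ → ℂ) ∘ ofComplex) (1 : ℝ) :=
    SlashInvariantFormClass.periodic_comp_ofComplex f
      (CongruenceSubgroup.one_mem_strictPeriods_Gamma0 N)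
  obtain ⟨Φ, -, h2, h3, h4⟩ := exists_primitive one_pos hper (ModularFormClass.holo f)
    (CuspFormClass.zero_at_infty f)
  exact ⟨Φ, h2, h3, h4⟩

theorem slash_two_apply (f : ℍ → ℂ) (δ : SL(2, ℤ)) (τ : ℍ) :
    (f ∣[(2 : ℤ)] δ) τ = f (δ • τ) * (1 / denC δ τ ^ 2) := by
  rw [ModularForm.SL_slash_apply, denom_eq]
  congr 1
  rw [one_div, ← zpow_natCast, ← zpow_neg]
  rfl

/-- The derivative of `F ∘ δ` is `f ∣[2] δ`. -/
theorem hasDerivAt_prim_smul {f F : ℍ → ℂ}
    (hF : ∀ τ : ℍ, HasDerivAt (F ∘ ofComplex) (f τ) τ) (δ : SL(2, ℤ)) (τ : ℍ) :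
    HasDerivAt ((fun σ : ℍ => F (δ • σ)) ∘ ofComplex) ((f ∣[(2 : ℤ)] δ) τ) τ := by
  have h1 := hasDerivAt_comp_smul δ F _ τ (hF (δ • τ))
  rwa [← slash_two_apply] at h1

theorem slash_eq_of_mem (f : CuspForm (Gamma0 N) 2) {γ : SL(2, ℤ)} (hγ : γ ∈ Gamma0 N) :
    (f : ℍ → ℂ) ∣[(2 : ℤ)] γ = f :=
  SlashInvariantFormClass.slash_action_eq f (Matrix.SpecialLinearGroup.mapGL ℝ γ) ⟨γ, hγ, rfl⟩

/-- Equivariance of the primitive. -/
theorem isEquivariantPrimitive_of_prim (f : CuspForm (Gamma0 N) 2) {F : ℍ → ℂ}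
    (hF : ∀ τ : ℍ, HasDerivAt (F ∘ ofComplex) (f τ) τ) :
    IsEquivariantPrimitive (Gamma0 N) F := by
  intro γ
  have hD : ∀ τ : ℍ, HasDerivAt
      ((fun σ : ℍ => F ((γ : SL(2, ℤ)) • σ)) ∘ ofComplex - F ∘ ofComplex) 0 τ := by
    intro τ
    have h1 := hasDerivAt_prim_smul hF (γ : SL(2, ℤ)) τ
    rw [slash_eq_of_mem N f γ.2] at h1
    have h2 := h1.sub (hF τ)
    rwa [sub_self] at h2
  obtain ⟨a, ha⟩ := exists_const_of_hasDerivAt_zero hD
  refine ⟨a, fun z => ?_⟩
  have := ha z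
  simpa using this

/-- Limits of the primitive at all cusps. -/
theorem exists_tendsto_prim_smul (f : CuspForm (Gamma0 N) 2) {F : ℍ → ℂ}
    (hF : ∀ τ : ℍ, HasDerivAt (F ∘ ofComplex) (f τ) τ) (δ : SL(2, ℤ)) :
    ∃ L : ℂ, Tendsto (fun w : ℍ => F (δ • w)) atImInfty (𝓝 L) := by
  obtain ⟨M, hMpos, hMper⟩ := Subgroup.IsArithmetic.exists_nat_mem_strictPeriods_conj
    (CongruenceSubgroup.Gamma0 N : Subgroup (GL (Fin 2) ℝ))
  have hper : Function.Periodic (((f : ℍ → ℂ) ∣[(2 : ℤ)] δ) ∘ ofComplex) (M : ℝ) := by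
    have h1 := hMper δ⁻¹
    rw [map_inv] at h1
    exact SlashInvariantFormClass.periodic_comp_ofComplex
      (SlashInvariantForm.translate f (Matrix.SpecialLinearGroup.mapGL ℝ δ)) h1
  have hhol : MDiff ((f : ℍ → ℂ) ∣[(2 : ℤ)] δ) := (ModularFormClass.holo f).slash _ _
  have hzero : IsZeroAtImInfty ((f : ℍ → ℂ) ∣[(2 : ℤ)] δ) := CuspFormClass.zero_at_infty_slash f δ
  obtain ⟨Φ, -, -, hΦ0, hΦ⟩ := exists_primitive (by exact_mod_cast hMpos : (0 : ℝ) < M) hper hhol
    hzero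
  have hD : ∀ τ : ℍ, HasDerivAt
      ((fun σ : ℍ => F (δ • σ)) ∘ ofComplex - Φ ∘ ofComplex) 0 τ := by
    intro τ
    have h2 := (hasDerivAt_prim_smul hF δ τ).sub (hΦ τ)
    rwa [sub_self] at h2
  obtain ⟨a, ha⟩ := exists_const_of_hasDerivAt_zero hD
  refine ⟨a, ?_⟩
  have h1 : Tendsto (fun w : ℍ => Φ w + a) atImInfty (𝓝 (0 + a)) := hΦ0.add_const a
  rw [zero_add] at h1
  refine h1.congr (fun w => ?_)
  have := ha w
  simp only [Pi.sub_apply, Function.comp_apply, ofComplex_apply] at this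
  rw [← this]; ring

/-- Periodicity of the primitive at every cusp, with a period independent of the cusp. -/
theorem exists_periodic_prim_smul (f : CuspForm (Gamma0 N) 2) {F : ℍ → ℂ}
    (hF : ∀ τ : ℍ, HasDerivAt (F ∘ ofComplex) (f τ) τ) :
    ∃ M : ℕ, 0 < M ∧ ∀ δ : SL(2, ℤ),
      Function.Periodic ((fun w : ℍ => F (δ • w)) ∘ ofComplex) (M : ℝ) := by
  obtain ⟨M, hMpos, hMper⟩ := Subgroup.IsArithmetic.exists_nat_mem_strictPeriods_conj
    (CongruenceSubgroup.Gamma0 N : Subgroup (GL (Fin 2) ℝ))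
  refine ⟨M, hMpos, fun δ => ?_⟩
  have hper : Function.Periodic (((f : ℍ → ℂ) ∣[(2 : ℤ)] δ) ∘ ofComplex) (M : ℝ) := by
    have h1 := hMper δ⁻¹
    rw [map_inv] at h1
    exact SlashInvariantFormClass.periodic_comp_ofComplex
      (SlashInvariantForm.translate f (Matrix.SpecialLinearGroup.mapGL ℝ δ)) h1
  have hhol : MDiff ((f : ℍ → ℂ) ∣[(2 : ℤ)] δ) := (ModularFormClass.holo f).slash _ _
  have hzero : IsZeroAtImInfty ((f : ℍ → ℂ) ∣[(2 : ℤ)] δ) := CuspFormClass.zero_at_infty_slash f δ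
  obtain ⟨Φ, hΦper, -, -, hΦ⟩ := exists_primitive (by exact_mod_cast hMpos : (0 : ℝ) < M) hper
    hhol hzero
  have hD : ∀ τ : ℍ, HasDerivAt
      ((fun σ : ℍ => F (δ • σ)) ∘ ofComplex - Φ ∘ ofComplex) 0 τ := by
    intro τ
    have h2 := (hasDerivAt_prim_smul hF δ τ).sub (hΦ τ)
    rwa [sub_self] at h2
  obtain ⟨a, ha⟩ := exists_const_of_hasDerivAt_zero hD
  have key : ∀ w : ℍ, F (δ • w) = Φ w + a := by
    intro w
    have := ha w
    simp only [Pi.sub_apply, Function.comp_apply, ofComplex_apply] at this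
    rw [← this]; ring
  intro z
  have h3 := hΦper z
  simp only [Function.comp_apply] at h3 ⊢
  rw [key, key, h3]

theorem hasEquivariantPrimitive_of_prim (f : CuspForm (Gamma0 N) 2) {F : ℍ → ℂ}
    (hF0 : IsZeroAtImInfty F) (hF : ∀ τ : ℍ, HasDerivAt (F ∘ ofComplex) (f τ) τ) :
    HasEquivariantPrimitive N f F :=
  ⟨hF, hF0, isEquivariantPrimitive_of_prim N f hF, exists_tendsto_prim_smul N f hF⟩

/-- Every weight-two cusp form has an equivariant primitive in the sense of the prelude. -/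
theorem exists_hasEquivariantPrimitive (f : CuspForm (Gamma0 N) 2) :
    ∃ F : ℍ → ℂ, HasEquivariantPrimitive N f F := by
  obtain ⟨F, -, h0, h1⟩ := exists_prim N f
  exact ⟨F, hasEquivariantPrimitive_of_prim N f h0 h1⟩

theorem hasEquivariantPrimitive_unique {f : CuspForm (Gamma0 N) 2} {F G : ℍ → ℂ}
    (hF : HasEquivariantPrimitive N f F) (hG : HasEquivariantPrimitive N f G) : F = G :=
  eq_of_hasDerivAt_of_zero hF.1 hG.1 hF.2.1 hG.2.1

/-- The period map evaluated through any equivariant primitive. -/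
theorem periodMap_apply {f : CuspForm (Gamma0 N) 2} {F : ℍ → ℂ}
    (hF : HasEquivariantPrimitive N f F) (γ : Gamma0 N) :
    periodMap N f (Additive.ofMul γ)
      = F ((γ : SL(2, ℤ)) • UpperHalfPlane.I) - F UpperHalfPlane.I := by
  obtain ⟨F₀, h₀, hp⟩ := periodMap_def N f hF
  have hFF : F₀ = F := hasEquivariantPrimitive_unique N h₀ hF
  subst hFF
  rw [hp]
  rfl

/-- The period map evaluated at any base point. -/
theorem periodMap_apply' {f : CuspForm (Gamma0 N) 2} {F : ℍ → ℂ}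
    (hF : HasEquivariantPrimitive N f F) (γ : Gamma0 N) (z : ℍ) :
    periodMap N f (Additive.ofMul γ) = F ((γ : SL(2, ℤ)) • z) - F z := by
  rw [periodMap_apply N hF γ]
  obtain ⟨c, hc⟩ := hF.2.2.1 γ
  rw [hc z, hc UpperHalfPlane.I]

theorem periodMap_add (f g : CuspForm (Gamma0 N) 2) :
    periodMap N (f + g) = periodMap N f + periodMap N g := by
  obtain ⟨F, -, hF0, hF⟩ := exists_prim N f
  obtain ⟨G, -, hG0, hG⟩ := exists_prim N g
  have hFG : HasEquivariantPrimitive N (f + g) (F + G) := by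
    refine hasEquivariantPrimitive_of_prim N (f + g) (hF0.add hG0) (fun τ => ?_)
    exact (hF τ).add (hG τ)
  refine AddMonoidHom.ext fun γ => ?_
  obtain ⟨γ, rfl⟩ := Additive.ofMul.surjective γ
  rw [AddMonoidHom.add_apply, periodMap_apply N hFG, periodMap_apply N
    (hasEquivariantPrimitive_of_prim N f hF0 hF), periodMap_apply N
    (hasEquivariantPrimitive_of_prim N g hG0 hG)]
  simp only [Pi.add_apply]
  ring

theorem periodMap_smul (c : ℂ) (f : CuspForm (Gamma0 N) 2) :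
    periodMap N (c • f) = c • periodMap N f := by
  obtain ⟨F, -, hF0, hF⟩ := exists_prim N f
  have hcF : HasEquivariantPrimitive N (c • f) (c • F) := by
    refine hasEquivariantPrimitive_of_prim N (c • f) (hF0.smul c) (fun τ => ?_)
    exact (hF τ).const_smul c
  refine AddMonoidHom.ext fun γ => ?_
  obtain ⟨γ, rfl⟩ := Additive.ofMul.surjective γ
  rw [AddMonoidHom.smul_apply, periodMap_apply N hcF, periodMap_apply N
    (hasEquivariantPrimitive_of_prim N f hF0 hF)]
  simp only [Pi.smul_apply, smul_eq_mul]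
  ring

/-- The period map as a linear map. -/
noncomputable def periodMapLin : CuspForm (Gamma0 N) 2 →ₗ[ℂ] (Additive (Gamma0 N) →+ ℂ) where
  toFun f := periodMap N f
  map_add' := periodMap_add N
  map_smul' := periodMap_smul N

theorem periodMapLin_apply (f : CuspForm (Gamma0 N) 2) : periodMapLin N f = periodMap N f := rfl

theorem existsPeriodMapLinear : ExistsPeriodMapLinear N := ⟨periodMapLin N, fun _ => rfl⟩

/-- The pair map of the prelude, unfolded. -/
theorem periodHomPair_eq :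
    periodHomPair N = LinearMap.coprod
      ((LinearMap.id + charInvolution N ℂ ℂ) ∘ₗ periodMapLin N)
      ((LinearMap.id - charInvolution N ℂ ℂ) ∘ₗ periodMapLin N) := by
  obtain ⟨pml, hpml, h⟩ := periodHomPair_def N (existsPeriodMapLinear N)
  have : pml = periodMapLin N := LinearMap.ext fun f => by rw [hpml f]; rfl
  rw [h, this]

end Fermat.Agent.S21
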