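import Mathlib

/-!
# A dimension bound for homomorphisms killed by "parabolic" elements

Abstract Shapiro-type argument: `G` a group generated by `S` and `T`, `Γ ≤ G` of finite index,
`X = G ⧸ Γ`.  A subspace `P` of `Hom(Γ, ℂ)` whose members vanish on suitable conjugates of powers
of `S`, `T`, `S * T` satisfies
`dim P + #(X/⟨S⟩) + #(X/⟨T⟩) + #(X/⟨S*T⟩) ≤ #X + 2`.
-/

set_option autoImplicit false

namespace Fermat.Agent.S21.PermDim

open MulAction

section Abstract

variable {G : Type*} [Group G] (Γ : Subgroup G)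

/-- A section of the quotient map `G → G ⧸ Γ`. -/
noncomputable def psec (x : G ⧸ Γ) : G := Quotient.out x

lemma psec_spec (x : G ⧸ Γ) : ((psec Γ x : G) : G ⧸ Γ) = x := QuotientGroup.out_eq' x

lemma smul_coe_eq (g a : G) : g • ((a : G) : G ⧸ Γ) = ((g * a : G) : G ⧸ Γ) := rfl

lemma pkap_mem (g : G) (x : G ⧸ Γ) : (psec Γ (g • x))⁻¹ * g * psec Γ x ∈ Γ := by
  have h : ((psec Γ (g • x) : G) : G ⧸ Γ) = ((g * psec Γ x : G) : G ⧸ Γ) := by
    rw [psec_spec, ← smul_coe_eq, psec_spec]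
  rw [mul_assoc]
  exact QuotientGroup.eq.mp h

/-- The `Γ`-valued cocycle attached to the section. -/
noncomputable def pkap (g : G) (x : G ⧸ Γ) : Γ :=
  ⟨(psec Γ (g • x))⁻¹ * g * psec Γ x, pkap_mem Γ g x⟩

lemma pkap_mul (g h : G) (x : G ⧸ Γ) : pkap Γ (g * h) x = pkap Γ g (h • x) * pkap Γ h x := by
  apply Subtype.ext
  simp only [pkap, Subgroup.coe_mul, mul_smul]
  group

variable {Γ}

/-- The twisted scalar cocycle attached to `φ` and a function `m` on the coset space. -/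
noncomputable def pc (φ : Additive Γ →+ ℂ) (m : G ⧸ Γ → ℂ) (g : G) (x : G ⧸ Γ) : ℂ :=
  φ (Additive.ofMul (pkap Γ g x)) + m (g • x) - m x

lemma pc_mul (φ : Additive Γ →+ ℂ) (m : G ⧸ Γ → ℂ) (g h : G) (x : G ⧸ Γ) :
    pc φ m (g * h) x = pc φ m g (h • x) + pc φ m h x := by
  simp only [pc, pkap_mul, ofMul_mul, map_add, mul_smul]
  ring

lemma pc_one (φ : Additive Γ →+ ℂ) (m : G ⧸ Γ → ℂ) (x : G ⧸ Γ) : pc φ m 1 x = 0 := by
  have h := pc_mul φ m 1 1 x
  rw [mul_one, one_smul] at h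
  linear_combination -h

lemma pc_inv (φ : Additive Γ →+ ℂ) (m : G ⧸ Γ → ℂ) (g : G) (x : G ⧸ Γ) :
    pc φ m g⁻¹ x = - pc φ m g (g⁻¹ • x) := by
  have h := pc_mul φ m g g⁻¹ x
  rw [mul_inv_cancel, pc_one] at h
  linear_combination -h

lemma pc_pow (φ : Additive Γ →+ ℂ) (m : G ⧸ Γ → ℂ) (g : G) (n : ℕ) (x : G ⧸ Γ) :
    pc φ m (g ^ n) x = ∑ i ∈ Finset.range n, pc φ m g (g ^ i • x) := by
  induction n with
  | zero => simp [pc_one]
  | succ n ih => rw [pow_succ', pc_mul, Finset.sum_range_succ, ih]; ring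

lemma sum_pc_mul_eq_zero [Fintype (G ⧸ Γ)] (φ : Additive Γ →+ ℂ) (m : G ⧸ Γ → ℂ) (g : G)
    (n : ℕ) (hn : 0 < n) (hgn : ∀ x, pc φ m (g ^ n) x = 0) (f : G ⧸ Γ → ℂ)
    (hf : ∀ x, f (g • x) = f x) :
    ∑ x, pc φ m g x * f x = 0 := by
  have hf' : ∀ (i : ℕ) (x : G ⧸ Γ), f (g ^ i • x) = f x := by
    intro i
    induction i with
    | zero => intro x; simp
    | succ i ih => intro x; rw [pow_succ', mul_smul, hf, ih]
  have key : (n : ℂ) * ∑ x, pc φ m g x * f x = 0 := by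
    calc (n : ℂ) * ∑ x, pc φ m g x * f x
        = ∑ _i ∈ Finset.range n, ∑ x, pc φ m g x * f x := by
          simp [Finset.sum_const, nsmul_eq_mul]
      _ = ∑ i ∈ Finset.range n, ∑ x, pc φ m g (g ^ i • x) * f (g ^ i • x) := by
          refine Finset.sum_congr rfl fun i _ => ?_
          exact (Equiv.sum_comp (MulAction.toPerm (g ^ i)) (fun x => pc φ m g x * f x)).symm
      _ = ∑ x, (∑ i ∈ Finset.range n, pc φ m g (g ^ i • x)) * f x := by
          rw [Finset.sum_comm]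
          refine Finset.sum_congr rfl fun x _ => ?_
          rw [Finset.sum_mul]
          refine Finset.sum_congr rfl fun i _ => ?_
          rw [hf']
      _ = 0 := by simp [← pc_pow, hgn]
  have hn' : (n : ℂ) ≠ 0 := by exact_mod_cast hn.ne'
  exact (mul_eq_zero.mp key).resolve_left hn'

variable (Γ)

/-- Orbit space of the cyclic group generated by `g` on the coset space. -/
abbrev OQ (g : G) : Type _ := orbitRel.Quotient (Subgroup.zpowers g) (G ⧸ Γ)

/-- Projection to the orbit space. -/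
def opi (g : G) (x : G ⧸ Γ) : OQ Γ g := Quotient.mk'' x

lemma opi_smul (g : G) (x : G ⧸ Γ) : opi Γ g (g • x) = opi Γ g x :=
  orbitRel.Quotient.quotient_smul_eq
    (g := (⟨g, Subgroup.mem_zpowers g⟩ : Subgroup.zpowers g)) (a := x)

lemma opi_surjective (g : G) : Function.Surjective (opi Γ g) := Quotient.mk''_surjective

variable {Γ}

/-- The vanishing condition on conjugates of `g ^ n`. -/
def GoodPow (P : Submodule ℂ (Additive Γ →+ ℂ)) (g : G) (n : ℕ) : Prop :=
  0 < n ∧ ∀ u : G, ∃ h : u⁻¹ * g ^ n * u ∈ Γ,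
    ∀ φ ∈ P, φ (Additive.ofMul (⟨u⁻¹ * g ^ n * u, h⟩ : Γ)) = 0

lemma GoodPow.smul_eq {P : Submodule ℂ (Additive Γ →+ ℂ)} {g : G} {n : ℕ}
    (h : GoodPow P g n) (x : G ⧸ Γ) : g ^ n • x = x := by
  obtain ⟨hu, -⟩ := h.2 (psec Γ x)
  have h1 : ((psec Γ x : G) : G ⧸ Γ) = ((g ^ n * psec Γ x : G) : G ⧸ Γ) := by
    rw [QuotientGroup.eq, ← mul_assoc]; exact hu
  conv_lhs => rw [← psec_spec Γ x]
  rw [smul_coe_eq, ← h1, psec_spec]

lemma GoodPow.pc_eq_zero {P : Submodule ℂ (Additive Γ →+ ℂ)} {g : G} {n : ℕ}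
    (h : GoodPow P g n) {φ : Additive Γ →+ ℂ} (hφ : φ ∈ P) (m : G ⧸ Γ → ℂ) (x : G ⧸ Γ) :
    pc φ m (g ^ n) x = 0 := by
  obtain ⟨hu, hu'⟩ := h.2 (psec Γ x)
  have hx := h.smul_eq x
  have hk : pkap Γ (g ^ n) x = ⟨(psec Γ x)⁻¹ * g ^ n * psec Γ x, hu⟩ := by
    apply Subtype.ext
    simp only [pkap, hx]
  rw [pc, hk, hu' φ hφ, hx]
  ring

lemma goodPow_of_pow_eq_one (P : Submodule ℂ (Additive Γ →+ ℂ)) {g : G} {n : ℕ} (hn : 0 < n)
    (h : g ^ n = 1) : GoodPow P g n := by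
  refine ⟨hn, fun u => ?_⟩
  have h1 : u⁻¹ * g ^ n * u = 1 := by rw [h]; group
  refine ⟨by rw [h1]; exact one_mem _, fun φ _ => ?_⟩
  have h2 : (⟨u⁻¹ * g ^ n * u, by rw [h1]; exact one_mem _⟩ : Γ) = 1 := Subtype.ext h1
  rw [h2]
  exact map_zero φ

/-- The big linear map whose injectivity gives the dimension bound. -/
noncomputable def bigMap (P : Submodule ℂ (Additive Γ →+ ℂ)) (S T : G) :
    (P × (G ⧸ Γ → ℂ) × ((OQ Γ S → ℂ) × (OQ Γ T → ℂ) × (OQ Γ (S * T) → ℂ))) →ₗ[ℂ]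
      ((G ⧸ Γ → ℂ) × (G ⧸ Γ → ℂ)) × (ℂ × ℂ) where
  toFun v :=
    ((fun x => pc (v.1 : Additive Γ →+ ℂ) v.2.1 S x + v.2.2.1 (opi Γ S x)
        + v.2.2.2.2 (opi Γ (S * T) (T⁻¹ • x)),
      fun x => pc (v.1 : Additive Γ →+ ℂ) v.2.1 T x + v.2.2.2.1 (opi Γ T x)
        + v.2.2.2.2 (opi Γ (S * T) x)),
     (v.2.1 (((1 : G) : G ⧸ Γ)), v.2.2.2.2 (opi Γ (S * T) (((1 : G) : G ⧸ Γ)))))
  map_add' v w := by
    refine Prod.ext (Prod.ext ?_ ?_) (Prod.ext ?_ ?_)
    · funext x
      simp only [pc, Prod.fst_add, Prod.snd_add, Submodule.coe_add, AddMonoidHom.add_apply,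
        Pi.add_apply]
      ring
    · funext x
      simp only [pc, Prod.fst_add, Prod.snd_add, Submodule.coe_add, AddMonoidHom.add_apply,
        Pi.add_apply]
      ring
    · simp
    · simp
  map_smul' c v := by
    refine Prod.ext (Prod.ext ?_ ?_) (Prod.ext ?_ ?_)
    · funext x
      simp only [pc, Prod.smul_fst, Prod.smul_snd, Submodule.coe_smul, AddMonoidHom.smul_apply,
        Pi.smul_apply, smul_eq_mul, RingHom.id_apply]
      ring
    · funext x
      simp only [pc, Prod.smul_fst, Prod.smul_snd, Submodule.coe_smul, AddMonoidHom.smul_apply,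
        Pi.smul_apply, smul_eq_mul, RingHom.id_apply]
      ring
    · simp
    · simp

theorem bigMap_injective [Fintype (G ⧸ Γ)] (P : Submodule ℂ (Additive Γ →+ ℂ)) (S T : G)
    (hgen : Subgroup.closure {S, T} = ⊤) {nS nT nR : ℕ}
    (hS : GoodPow P S nS) (hT : GoodPow P T nT) (hR : GoodPow P (S * T) nR) :
    Function.Injective (bigMap P S T) := by
  rw [← LinearMap.ker_eq_bot, LinearMap.ker_eq_bot']
  rintro ⟨⟨φ, hφ⟩, m, lam, mu, nu⟩ hv
  have hv1 := congrArg (fun z => z.1.1) hv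
  have hv2 := congrArg (fun z => z.1.2) hv
  have h3 : m (((1 : G) : G ⧸ Γ)) = 0 := congrArg (fun z => z.2.1) hv
  have h4 : nu (opi Γ (S * T) (((1 : G) : G ⧸ Γ))) = 0 := congrArg (fun z => z.2.2) hv
  have h1 : ∀ x, pc φ m S x + lam (opi Γ S x) + nu (opi Γ (S * T) (T⁻¹ • x)) = 0 :=
    fun x => congrFun hv1 x
  have h2 : ∀ x, pc φ m T x + mu (opi Γ T x) + nu (opi Γ (S * T) x) = 0 :=
    fun x => congrFun hv2 x
  -- Step A: orthogonality
  have hA : ∀ (lam' : OQ Γ S → ℂ) (mu' : OQ Γ T → ℂ) (nu' : OQ Γ (S * T) → ℂ),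
      ∑ x, pc φ m S x * (lam' (opi Γ S x) + nu' (opi Γ (S * T) (T⁻¹ • x)))
        + ∑ x, pc φ m T x * (mu' (opi Γ T x) + nu' (opi Γ (S * T) x)) = 0 := by
    intro lam' mu' nu'
    have e1 := sum_pc_mul_eq_zero φ m S nS hS.1 (hS.pc_eq_zero hφ m)
      (fun x => lam' (opi Γ S x)) (fun x => by rw [opi_smul])
    have e2 := sum_pc_mul_eq_zero φ m T nT hT.1 (hT.pc_eq_zero hφ m)
      (fun x => mu' (opi Γ T x)) (fun x => by rw [opi_smul])
    have e3 := sum_pc_mul_eq_zero φ m (S * T) nR hR.1 (hR.pc_eq_zero hφ m)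
      (fun x => nu' (opi Γ (S * T) x)) (fun x => by rw [opi_smul])
    have e4 : ∑ x, pc φ m S x * nu' (opi Γ (S * T) (T⁻¹ • x))
        = ∑ x, pc φ m S (T • x) * nu' (opi Γ (S * T) x) := by
      rw [← Equiv.sum_comp (MulAction.toPerm T)
        (fun x => pc φ m S x * nu' (opi Γ (S * T) (T⁻¹ • x)))]
      refine Finset.sum_congr rfl fun x _ => ?_
      simp [MulAction.toPerm_apply]
    have e3' : ∑ x, pc φ m S (T • x) * nu' (opi Γ (S * T) x)
        + ∑ x, pc φ m T x * nu' (opi Γ (S * T) x) = 0 := by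
      rw [← Finset.sum_add_distrib, ← e3]
      refine Finset.sum_congr rfl fun x _ => ?_
      rw [pc_mul]; ring
    simp only [mul_add, Finset.sum_add_distrib]
    rw [e4]
    linear_combination e1 + e2 + e3'
  -- Step B: the orbit-function part vanishes
  have hpS : ∀ x, pc φ m S x = -(lam (opi Γ S x) + nu (opi Γ (S * T) (T⁻¹ • x))) :=
    fun x => by linear_combination h1 x
  have hpT : ∀ x, pc φ m T x = -(mu (opi Γ T x) + nu (opi Γ (S * T) x)) :=
    fun x => by linear_combination h2 x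
  have hB := hA (fun q => starRingEnd ℂ (lam q)) (fun q => starRingEnd ℂ (mu q))
    (fun q => starRingEnd ℂ (nu q))
  have hsum : (∑ x, Complex.normSq (lam (opi Γ S x) + nu (opi Γ (S * T) (T⁻¹ • x)))
      + ∑ x, Complex.normSq (mu (opi Γ T x) + nu (opi Γ (S * T) x)) : ℝ) = 0 := by
    have hc : ((∑ x, Complex.normSq (lam (opi Γ S x) + nu (opi Γ (S * T) (T⁻¹ • x)))
      + ∑ x, Complex.normSq (mu (opi Γ T x) + nu (opi Γ (S * T) x)) : ℝ) : ℂ) = 0 := by
      push_cast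
      simp only [← Complex.mul_conj, map_add]
      simp only [hpS, hpT, neg_mul, Finset.sum_neg_distrib] at hB
      linear_combination -hB
    exact_mod_cast hc
  have hz := (add_eq_zero_iff_of_nonneg
    (Finset.sum_nonneg fun x _ => Complex.normSq_nonneg _)
    (Finset.sum_nonneg fun x _ => Complex.normSq_nonneg _)).mp hsum
  have hz1 : ∀ x, lam (opi Γ S x) + nu (opi Γ (S * T) (T⁻¹ • x)) = 0 := fun x =>
    Complex.normSq_eq_zero.mp
      ((Finset.sum_eq_zero_iff_of_nonneg fun x _ => Complex.normSq_nonneg _).mp hz.1 x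
        (Finset.mem_univ x))
  have hz2 : ∀ x, mu (opi Γ T x) + nu (opi Γ (S * T) x) = 0 := fun x =>
    Complex.normSq_eq_zero.mp
      ((Finset.sum_eq_zero_iff_of_nonneg fun x _ => Complex.normSq_nonneg _).mp hz.2 x
        (Finset.mem_univ x))
  have hS0 : ∀ x, pc φ m S x = 0 := fun x => by rw [hpS, hz1, neg_zero]
  have hT0 : ∀ x, pc φ m T x = 0 := fun x => by rw [hpT, hz2, neg_zero]
  -- Step C: the cocycle vanishes identically
  have hC : ∀ g : G, ∀ x, pc φ m g x = 0 := by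
    intro g
    have hg : g ∈ Subgroup.closure {S, T} := by rw [hgen]; trivial
    induction hg using Subgroup.closure_induction with
    | mem y hy =>
      rcases hy with rfl | hy
      · exact hS0
      · rw [Set.mem_singleton_iff] at hy; subst hy; exact hT0
    | one => exact pc_one φ m
    | mul y z _ _ hy hz => intro x; rw [pc_mul, hy, hz, add_zero]
    | inv y _ hy => intro x; rw [pc_inv, hy, neg_zero]
  -- Step D: φ = 0
  have hx0 : ∀ γ : Γ, (γ : G) • (((1 : G) : G ⧸ Γ)) = (((1 : G) : G ⧸ Γ)) := by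
    intro γ
    rw [smul_coe_eq, eq_comm, QuotientGroup.eq]
    simp
  have hmem0 : psec Γ (((1 : G) : G ⧸ Γ)) ∈ Γ := by
    have h := QuotientGroup.eq.mp (psec_spec Γ (((1 : G) : G ⧸ Γ))).symm
    simpa using h
  have hφ0 : φ = 0 := by
    refine AddMonoidHom.ext fun a => ?_
    obtain ⟨γ, rfl⟩ : ∃ γ : Γ, Additive.ofMul γ = a := ⟨Additive.toMul a, rfl⟩
    have h := hC (γ : G) (((1 : G) : G ⧸ Γ))
    rw [pc, hx0 γ] at h
    have hk : pkap Γ (γ : G) (((1 : G) : G ⧸ Γ))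
        = (⟨psec Γ (((1 : G) : G ⧸ Γ)), hmem0⟩ : Γ)⁻¹ * γ
          * ⟨psec Γ (((1 : G) : G ⧸ Γ)), hmem0⟩ := by
      apply Subtype.ext
      simp only [pkap, hx0 γ, Subgroup.coe_mul, Subgroup.coe_inv]
    rw [hk] at h
    simp only [ofMul_mul, ofMul_inv, map_add, map_neg] at h
    simp only [AddMonoidHom.zero_apply]
    linear_combination h
  -- Step E: m = 0
  have hm0 : m = 0 := by
    funext x
    induction x using QuotientGroup.induction_on with
    | H g =>
      have h := hC g (((1 : G) : G ⧸ Γ))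
      rw [pc, hφ0] at h
      simp only [AddMonoidHom.zero_apply, zero_add] at h
      rw [smul_coe_eq, mul_one, h3, sub_zero] at h
      exact h
  -- Step F: nu, mu, lam vanish
  have hnT : ∀ x, nu (opi Γ (S * T) (T • x)) = nu (opi Γ (S * T) x) := by
    intro x
    have a := hz2 (T • x)
    have b := hz2 x
    rw [opi_smul] at a
    linear_combination a - b
  have hnR : ∀ x, nu (opi Γ (S * T) ((S * T) • x)) = nu (opi Γ (S * T) x) := by
    intro x; rw [opi_smul]
  have hnS : ∀ x, nu (opi Γ (S * T) (S • x)) = nu (opi Γ (S * T) x) := by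
    intro x
    have a := hnR (T⁻¹ • x)
    have b := hnT (T⁻¹ • x)
    rw [mul_smul, smul_inv_smul] at a
    rw [smul_inv_smul] at b
    rw [a, b]
  have hnG : ∀ g : G, ∀ x, nu (opi Γ (S * T) (g • x)) = nu (opi Γ (S * T) x) := by
    intro g
    have hg : g ∈ Subgroup.closure {S, T} := by rw [hgen]; trivial
    induction hg using Subgroup.closure_induction with
    | mem y hy =>
      rcases hy with rfl | hy
      · exact hnS
      · rw [Set.mem_singleton_iff] at hy; subst hy; exact hnT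
    | one => intro x; rw [one_smul]
    | mul y z _ _ hy hz => intro x; rw [mul_smul, hy, hz]
    | inv y _ hy => intro x; rw [← hy (y⁻¹ • x), smul_inv_smul]
  have hnu0 : nu = 0 := by
    funext q
    obtain ⟨x, rfl⟩ := opi_surjective Γ (S * T) q
    induction x using QuotientGroup.induction_on with
    | H g =>
      have h := hnG g (((1 : G) : G ⧸ Γ))
      rw [smul_coe_eq, mul_one, h4] at h
      simpa using h
  have hmu0 : mu = 0 := by
    funext q
    obtain ⟨x, rfl⟩ := opi_surjective Γ T q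
    have h := hz2 x
    rw [hnu0] at h
    simpa using h
  have hlam0 : lam = 0 := by
    funext q
    obtain ⟨x, rfl⟩ := opi_surjective Γ S q
    have h := hz1 x
    rw [hnu0] at h
    simpa using h
  subst hφ0 hm0 hnu0 hmu0 hlam0
  rfl

/-- The dimension bound. -/
theorem finrank_add_orbits_le [Finite (G ⧸ Γ)] (P : Submodule ℂ (Additive Γ →+ ℂ)) (S T : G)
    (hgen : Subgroup.closure {S, T} = ⊤) {nS nT nR : ℕ}
    (hS : GoodPow P S nS) (hT : GoodPow P T nT) (hR : GoodPow P (S * T) nR) :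
    Module.Finite ℂ P ∧
      Module.finrank ℂ P + Nat.card (OQ Γ S) + Nat.card (OQ Γ T) + Nat.card (OQ Γ (S * T))
        ≤ Nat.card (G ⧸ Γ) + 2 := by
  classical
  have : Fintype (G ⧸ Γ) := Fintype.ofFinite _
  have : Fintype (OQ Γ S) := Fintype.ofFinite _
  have : Fintype (OQ Γ T) := Fintype.ofFinite _
  have : Fintype (OQ Γ (S * T)) := Fintype.ofFinite _
  have hinj := bigMap_injective P S T hgen hS hT hR
  have hD : FiniteDimensional ℂ
      (P × (G ⧸ Γ → ℂ) × ((OQ Γ S → ℂ) × (OQ Γ T → ℂ) × (OQ Γ (S * T) → ℂ))) :=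
    FiniteDimensional.of_injective (bigMap P S T) hinj
  have hP : Module.Finite ℂ P :=
    Module.Finite.of_surjective
      (LinearMap.fst ℂ P ((G ⧸ Γ → ℂ) × ((OQ Γ S → ℂ) × (OQ Γ T → ℂ) × (OQ Γ (S * T) → ℂ))))
      LinearMap.fst_surjective
  refine ⟨hP, ?_⟩
  have h := LinearMap.finrank_le_finrank_of_injective hinj
  simp only [Module.finrank_prod, Module.finrank_fintype_fun_eq_card, Module.finrank_self] at h
  simp only [Nat.card_eq_fintype_card]
  omega

end Abstract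

end Fermat.Agent.S21.PermDim
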