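import Mathlib
import Fermat.Prelude.Def_ModularCurve_PeriodMap
import Fermat.Prelude.Def_ModularCurve_GenusNumerics
import Fermat.Agent.S21.PermDim
import Fermat.Agent.Lib.Gamma0Count

/-!
# Upper bound for the dimension of the parabolic homomorphisms of `Γ₀(N)`

`dim Hom_par(Γ₀(N), ℂ) ≤ 2 * genusFormula N`, given the four coset counts
(index, fixed points of `S` and `S * T`, orbits of `T`).
-/

set_option autoImplicit false

namespace Fermat.Agent.S21.Shapiro

open MulAction Fermat.Agent.S21.PermDim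

section Burnside

variable {G : Type*} [Group G] {X : Type*} [MulAction G X] [Finite X]

lemma burnside_zpowers (g : G) {k : ℕ} (hk : orderOf g = k) (hk0 : 0 < k) :
    ∑ i ∈ Finset.range k, Nat.card (fixedBy X (g ^ i))
      = Nat.card (orbitRel.Quotient (Subgroup.zpowers g) X) * k := by
  classical
  subst hk
  have hg : IsOfFinOrder g := orderOf_pos_iff.mp hk0
  have : Fintype X := Fintype.ofFinite X
  have : Finite (Subgroup.zpowers g) := Nat.finite_of_card_ne_zero (by
    rw [Nat.card_zpowers]; exact hk0.ne')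
  have : Fintype (Subgroup.zpowers g) := Fintype.ofFinite _
  have : Fintype (Quotient (orbitRel (Subgroup.zpowers g) X)) := Fintype.ofFinite _
  have : (a : Subgroup.zpowers g) → Fintype (fixedBy X a) := fun _ => Fintype.ofFinite _
  have h := sum_card_fixedBy_eq_card_orbits_mul_card_group (Subgroup.zpowers g) X
  rw [← Nat.card_eq_fintype_card (α := Subgroup.zpowers g), Nat.card_zpowers,
    ← Nat.card_eq_fintype_card] at h
  rw [← h, ← Fin.sum_univ_eq_sum_range (fun i => Nat.card (fixedBy X (g ^ i)))]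
  refine Fintype.sum_equiv (finEquivZPowers hg) _ _ (fun i => ?_)
  rw [← Nat.card_eq_fintype_card]
  have : fixedBy X (finEquivZPowers hg i) = fixedBy X (g ^ (i : ℕ)) := by
    ext x
    simp [mem_fixedBy, Subgroup.smul_def, finEquivZPowers_apply]
  rw [this]

omit [Finite X] in
lemma card_fixedBy_of_forall (a : G) (h : ∀ x : X, a • x = x) :
    Nat.card (fixedBy X a) = Nat.card X := by
  have : fixedBy X a = Set.univ := by
    ext x; simp [mem_fixedBy, h x]
  rw [this]
  exact Nat.card_congr (Equiv.Set.univ X)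

omit [Finite X] in
lemma card_fixedBy_congr (a b : G) (h : ∀ x : X, a • x = x ↔ b • x = x) :
    Nat.card (fixedBy X a) = Nat.card (fixedBy X b) := by
  have : fixedBy X a = fixedBy X b := by
    ext x; simp [mem_fixedBy, h x]
  rw [this]

lemma two_mul_card_orbits (g : G) (h4 : orderOf g = 4) (h2 : ∀ x : X, g ^ 2 • x = x) :
    2 * Nat.card (orbitRel.Quotient (Subgroup.zpowers g) X)
      = Nat.card X + Nat.card (fixedBy X g) := by
  have hb := burnside_zpowers (X := X) g h4 (by norm_num)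
  have e0 : Nat.card (fixedBy X (g ^ 0)) = Nat.card X :=
    card_fixedBy_of_forall _ (fun x => by simp)
  have e1 : Nat.card (fixedBy X (g ^ 1)) = Nat.card (fixedBy X g) := by rw [pow_one]
  have e2 : Nat.card (fixedBy X (g ^ 2)) = Nat.card X := card_fixedBy_of_forall _ h2
  have e3 : Nat.card (fixedBy X (g ^ 3)) = Nat.card (fixedBy X g) :=
    card_fixedBy_congr _ _ (fun x => by
      have : g ^ 3 • x = g • x := by
        rw [show g ^ 3 = g ^ 2 * g by group, mul_smul, h2]
      rw [this])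
  simp only [Finset.sum_range_succ, Finset.sum_range_zero, zero_add, e0, e1, e2, e3] at hb
  omega

lemma three_mul_card_orbits (g : G) (h6 : orderOf g = 6) (h3 : ∀ x : X, g ^ 3 • x = x) :
    3 * Nat.card (orbitRel.Quotient (Subgroup.zpowers g) X)
      = Nat.card X + 2 * Nat.card (fixedBy X g) := by
  have hb := burnside_zpowers (X := X) g h6 (by norm_num)
  have e0 : Nat.card (fixedBy X (g ^ 0)) = Nat.card X :=
    card_fixedBy_of_forall _ (fun x => by simp)
  have e1 : Nat.card (fixedBy X (g ^ 1)) = Nat.card (fixedBy X g) := by rw [pow_one]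
  have k2 : ∀ x : X, g ^ 2 • x = x ↔ g • x = x := by
    intro x
    constructor
    · intro h
      have h' := h3 x
      rw [show g ^ 3 = g * g ^ 2 by group, mul_smul, h] at h'
      exact h'
    · intro h
      rw [pow_two, mul_smul, h, h]
  have e2 : Nat.card (fixedBy X (g ^ 2)) = Nat.card (fixedBy X g) := card_fixedBy_congr _ _ k2
  have e3 : Nat.card (fixedBy X (g ^ 3)) = Nat.card X := card_fixedBy_of_forall _ h3
  have e4 : Nat.card (fixedBy X (g ^ 4)) = Nat.card (fixedBy X g) :=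
    card_fixedBy_congr _ _ (fun x => by
      have : g ^ 4 • x = g • x := by
        rw [show g ^ 4 = g ^ 3 * g by group, mul_smul, h3]
      rw [this])
  have e5 : Nat.card (fixedBy X (g ^ 5)) = Nat.card (fixedBy X g) :=
    card_fixedBy_congr _ _ (fun x => by
      have : g ^ 5 • x = g ^ 2 • x := by
        rw [show g ^ 5 = g ^ 3 * g ^ 2 by group, mul_smul, h3]
      rw [this, k2])
  simp only [Finset.sum_range_succ, Finset.sum_range_zero, zero_add, e0, e1, e2, e3, e4, e5]
    at hb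
  omega

end Burnside

section SL2

open scoped MatrixGroups
open CongruenceSubgroup ModularGroup ModularCurve.Period

lemma orderOf_S : orderOf (S : SL(2, ℤ)) = 4 := by
  rw [orderOf_eq_iff (by norm_num)]
  refine ⟨by decide, fun m hm hm0 => ?_⟩
  interval_cases m <;> decide

lemma orderOf_ST : orderOf (S * T : SL(2, ℤ)) = 6 := by
  rw [orderOf_eq_iff (by norm_num)]
  refine ⟨by decide, fun m hm hm0 => ?_⟩
  interval_cases m <;> decide

lemma neg_one_smul_coset (N : ℕ) (x : SL(2, ℤ) ⧸ Gamma0 N) : (-1 : SL(2, ℤ)) • x = x := by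
  induction x using QuotientGroup.induction_on with
  | H g =>
    rw [smul_coe_eq, eq_comm, QuotientGroup.eq]
    have : g⁻¹ * (-1 * g) = -1 := by
      rw [neg_mul, one_mul, mul_neg, inv_mul_cancel]
    rw [this, Gamma0_mem]
    simp

lemma conj_T_zpow_entry (u : SL(2, ℤ)) (k : ℤ) :
    ((u⁻¹ * T ^ k * u : SL(2, ℤ)) : Matrix (Fin 2) (Fin 2) ℤ) 1 0 = -k * (u 1 0) ^ 2 := by
  simp only [Matrix.SpecialLinearGroup.coe_mul, Matrix.SpecialLinearGroup.coe_inv,
    coe_T_zpow, Matrix.adjugate_fin_two, Matrix.mul_apply, Fin.sum_univ_two,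
    Matrix.of_apply, Matrix.cons_val_zero, Matrix.cons_val_one]
  simp
  ring

lemma conj_T_zpow_trace (u : SL(2, ℤ)) (k : ℤ) :
    ((u⁻¹ * T ^ k * u : SL(2, ℤ)) : Matrix (Fin 2) (Fin 2) ℤ).trace = 2 := by
  have hdet : (u : Matrix (Fin 2) (Fin 2) ℤ) 0 0 * u 1 1 - u 0 1 * u 1 0 = 1 := by
    have := u.det_coe
    rw [Matrix.det_fin_two] at this
    exact this
  simp only [Matrix.SpecialLinearGroup.coe_mul, Matrix.SpecialLinearGroup.coe_inv,
    coe_T_zpow, Matrix.adjugate_fin_two, Matrix.trace_fin_two, Matrix.mul_apply,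
    Fin.sum_univ_two, Matrix.of_apply, Matrix.cons_val_zero, Matrix.cons_val_one]
  simp
  linear_combination 2 * hdet

theorem finrank_parabolicHoms_le_of_counts (N : ℕ) [NeZero N]
    (hK1 : Nat.card (SL(2, ℤ) ⧸ Gamma0 N) = ModularCurve.dedekindPsi N)
    (hK2 : Nat.card (MulAction.fixedBy (SL(2, ℤ) ⧸ Gamma0 N) S) = ModularCurve.nuTwo N)
    (hK3 : Nat.card (MulAction.fixedBy (SL(2, ℤ) ⧸ Gamma0 N) (S * T)) = ModularCurve.nuThree N)
    (hK4 : Nat.card (MulAction.orbitRel.Quotient (Subgroup.zpowers T) (SL(2, ℤ) ⧸ Gamma0 N))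
      = ModularCurve.cuspCount N) :
    Module.Finite ℂ (parabolicHoms ℂ (Gamma0 N) ℂ) ∧
      (Module.finrank ℂ (parabolicHoms ℂ (Gamma0 N) ℂ) : ℚ)
        ≤ 2 * ModularCurve.genusFormula N := by
  have hS : GoodPow (parabolicHoms ℂ (Gamma0 N) ℂ) (S : SL(2, ℤ)) 4 :=
    goodPow_of_pow_eq_one _ (by norm_num) (by decide)
  have hR : GoodPow (parabolicHoms ℂ (Gamma0 N) ℂ) (S * T : SL(2, ℤ)) 6 :=
    goodPow_of_pow_eq_one _ (by norm_num) (by decide)
  have hT : GoodPow (parabolicHoms ℂ (Gamma0 N) ℂ) (T : SL(2, ℤ)) N := by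
    refine ⟨NeZero.pos N, fun u => ?_⟩
    have hmem : u⁻¹ * T ^ N * u ∈ Gamma0 N := by
      rw [Gamma0_mem, ← zpow_natCast, conj_T_zpow_entry]
      push_cast
      simp
    refine ⟨hmem, fun φ hφ => ?_⟩
    rw [mem_parabolicHoms_iff] at hφ
    apply hφ
    show ((u⁻¹ * T ^ N * u : SL(2, ℤ)) : Matrix (Fin 2) (Fin 2) ℤ).trace ^ 2 = 4
    rw [← zpow_natCast, conj_T_zpow_trace]
    norm_num
  obtain ⟨hfin, hle⟩ := finrank_add_orbits_le (parabolicHoms ℂ (Gamma0 N) ℂ) S T
    SpecialLinearGroup.SL2Z_generators hS hT hR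
  refine ⟨hfin, ?_⟩
  have h2 := two_mul_card_orbits (X := SL(2, ℤ) ⧸ Gamma0 N) (S : SL(2, ℤ)) orderOf_S
    (fun x => by rw [show (S : SL(2, ℤ)) ^ 2 = -1 by decide]; exact neg_one_smul_coset N x)
  have h3 := three_mul_card_orbits (X := SL(2, ℤ) ⧸ Gamma0 N) (S * T : SL(2, ℤ)) orderOf_ST
    (fun x => by rw [show (S * T : SL(2, ℤ)) ^ 3 = -1 by decide]; exact neg_one_smul_coset N x)
  rw [hK1, hK2] at h2
  rw [hK1, hK3] at h3
  rw [hK1, hK4] at hle
  have h2' : (2 : ℚ) * (Nat.card (OQ (Gamma0 N) S) : ℚ)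
      = ModularCurve.dedekindPsi N + ModularCurve.nuTwo N := by exact_mod_cast h2
  have h3' : (3 : ℚ) * (Nat.card (OQ (Gamma0 N) (S * T)) : ℚ)
      = ModularCurve.dedekindPsi N + 2 * ModularCurve.nuThree N := by exact_mod_cast h3
  have hle' : (Module.finrank ℂ (parabolicHoms ℂ (Gamma0 N) ℂ) : ℚ)
      + (Nat.card (OQ (Gamma0 N) S) : ℚ) + (ModularCurve.cuspCount N : ℚ)
      + (Nat.card (OQ (Gamma0 N) (S * T)) : ℚ) ≤ (ModularCurve.dedekindPsi N : ℚ) + 2 := by
    exact_mod_cast hle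
  unfold ModularCurve.genusFormula
  linarith

end SL2

end Fermat.Agent.S21.Shapiro

namespace Fermat.Agent.S21

open scoped MatrixGroups
open CongruenceSubgroup ModularCurve.Period

/-- `dim Hom_par(Γ₀(N), ℂ) ≤ 2 g(X₀(N))` (and finite-dimensionality). -/
theorem finrank_parabolicHoms_le (N : ℕ) [NeZero N] :
    Module.Finite ℂ (parabolicHoms ℂ (Gamma0 N) ℂ) ∧
      (Module.finrank ℂ (parabolicHoms ℂ (Gamma0 N) ℂ) : ℚ)
        ≤ 2 * ModularCurve.genusFormula N :=
  Shapiro.finrank_parabolicHoms_le_of_counts N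
    (Fermat.Agent.Lib.Gamma0Count.card_quotient N)
    (Fermat.Agent.Lib.Gamma0Count.card_fixedBy_S N)
    (Fermat.Agent.Lib.Gamma0Count.card_fixedBy_ST N)
    (Fermat.Agent.Lib.Gamma0Count.card_orbits_T N)

end Fermat.Agent.S21
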