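import Mathlib
import Fermat.Prelude.Def_ModularCurve_PeriodHomPair
import Fermat.Agent.Lib.EichlerInj

set_option autoImplicit false

namespace Fermat.Agent.S21

open Complex Filter Topology
open UpperHalfPlane hiding I
open scoped MatrixGroups ComplexConjugate
open ModularCurve.Period Fermat.Agent.Lib.EichlerInj

/-- The anti-holomorphic involution `z ↦ -conj z` of the upper half-plane. -/
noncomputable def flip (z : ℍ) : ℍ := UpperHalfPlane.J • z

theorem coe_flip (z : ℍ) : (flip z : ℂ) = -conj (z : ℂ) := coe_J_smul z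

theorem flip_flip (z : ℍ) : flip (flip z) = z := by
  apply UpperHalfPlane.ext
  rw [coe_flip, coe_flip]
  simp

theorem im_flip (z : ℍ) : (flip z).im = z.im := by
  have h := congrArg Complex.im (coe_flip z)
  simpa using h

theorem tendsto_flip : Tendsto flip atImInfty atImInfty := by
  rw [atImInfty, tendsto_comap_iff]
  have : UpperHalfPlane.im ∘ flip = UpperHalfPlane.im := funext im_flip
  rw [this]
  exact tendsto_comap

theorem flip_smul (δ : SL(2, ℤ)) (z : ℍ) : flip (δ • z) = jConjSL δ • flip z := by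
  apply UpperHalfPlane.ext
  rw [coe_flip, coe_smul_eq, coe_smul_eq, coe_flip]
  simp only [numC, denC, jConjSL_coe, jConjMat_apply_zero_zero, jConjMat_apply_zero_one,
    jConjMat_apply_one_zero, jConjMat_apply_one_one, map_div₀, map_add, map_mul, map_intCast,
    Int.cast_neg]
  ring

theorem flip_ofComplex {z : ℂ} (hz : 0 < z.im) : flip (ofComplex z) = ofComplex (-conj z) := by
  apply UpperHalfPlane.ext
  have hz' : 0 < (-conj z).im := by simpa using hz
  rw [coe_flip, ofComplex_apply_of_im_pos hz, ofComplex_apply_of_im_pos hz']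

/-- Conjugate-flip of a function on the upper half-plane: `z ↦ conj (F (-conj z))`. -/
noncomputable def cflip (F : ℍ → ℂ) : ℍ → ℂ := fun z => conj (F (flip z))

theorem cflip_apply (F : ℍ → ℂ) (z : ℍ) : cflip F z = conj (F (flip z)) := rfl

theorem re_cflip (F : ℍ → ℂ) (z : ℍ) : (cflip F z).re = (F (flip z)).re := by
  simp [cflip]

theorem im_cflip (F : ℍ → ℂ) (z : ℍ) : (cflip F z).im = -(F (flip z)).im := by
  simp [cflip]

theorem hasDerivAt_cflip {F : ℍ → ℂ} {F' : ℂ} (τ : ℍ)
    (hF : HasDerivAt (F ∘ ofComplex) F' (flip τ : ℂ)) :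
    HasDerivAt (cflip F ∘ ofComplex) (-(conj F')) τ := by
  have h1 : HasDerivAt (conj ∘ (F ∘ ofComplex) ∘ conj) (conj F') (conj (flip τ : ℂ)) :=
    hF.conj_conj
  have hx : conj (flip τ : ℂ) = -(τ : ℂ) := by rw [coe_flip]; simp
  rw [hx] at h1
  have h2 : HasDerivAt (fun z : ℂ => conj (F (ofComplex (conj (-z))))) (-(conj F')) τ := by
    have := HasDerivAt.comp (τ : ℂ) h1 (hasDerivAt_neg (τ : ℂ))
    have e : conj F' * -1 = -(conj F') := by ring
    rw [e] at this
    exact this
  refine h2.congr_of_eventuallyEq ?_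
  have : ∀ᶠ z in 𝓝 (τ : ℂ), 0 < z.im := isOpen_upperHalfPlaneSet.mem_nhds τ.im_pos
  filter_upwards [this] with z hz
  simp only [Function.comp_apply, cflip]
  rw [flip_ofComplex hz, map_neg]

theorem tendsto_cflip_smul {F : ℍ → ℂ} (δ : SL(2, ℤ)) {L : ℂ}
    (h : Tendsto (fun w : ℍ => F (jConjSL δ • w)) atImInfty (𝓝 L)) :
    Tendsto (fun w : ℍ => cflip F (δ • w)) atImInfty (𝓝 (conj L)) := by
  have h1 : Tendsto (fun w : ℍ => F (jConjSL δ • flip w)) atImInfty (𝓝 L) := h.comp tendsto_flip
  have h2 := (Complex.continuous_conj.tendsto L).comp h1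
  refine h2.congr (fun w => ?_)
  simp only [Function.comp_apply, cflip, flip_smul]

theorem periodic_cflip_smul {F : ℍ → ℂ} (δ : SL(2, ℤ)) {M : ℝ}
    (hper : Function.Periodic ((fun w : ℍ => F (jConjSL δ • w)) ∘ ofComplex) M) :
    Function.Periodic ((fun w : ℍ => cflip F (δ • w)) ∘ ofComplex) M := by
  intro z
  by_cases hz : 0 < z.im
  · have hz' : 0 < (z + M).im := by simpa using hz
    simp only [Function.comp_apply, cflip, flip_smul]
    rw [flip_ofComplex hz, flip_ofComplex hz']
    have h1 := hper.sub_eq (-conj z)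
    simp only [Function.comp_apply] at h1
    have e : -conj (z + (M : ℂ)) = -conj z - (M : ℂ) := by
      simp only [map_add, Complex.conj_ofReal]; ring
    rw [e, h1]
  · have hz1 : z.im ≤ 0 := not_lt.mp hz
    have hz' : (z + M).im ≤ 0 := by simpa using hz1
    simp only [Function.comp_apply]
    rw [ofComplex_apply_of_im_nonpos hz', ofComplex_apply_of_im_nonpos hz1]

end Fermat.Agent.S21
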