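import Mathlib

set_option autoImplicit false

open UpperHalfPlane hiding I
open Filter Function Complex
open scoped Topology Manifold MatrixGroups

namespace Fermat.Agent.S21

namespace MaxNorm

theorem mdiff_comp_smul (g : ℍ → ℂ)
    (hg : ∀ τ : ℍ, DifferentiableAt ℂ (g ∘ ofComplex) τ) (δ : SL(2, ℤ)) :
    MDiff (fun w : ℍ => g (δ • w)) := by
  have hgm : MDiff g := fun τ => mdifferentiableAt_iff.mpr (hg τ)
  have hdet : 0 < ((Matrix.SpecialLinearGroup.mapGL ℝ δ : GL (Fin 2) ℝ)).det.val := by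
    simp
  exact hgm.comp (mdifferentiable_smul hdet)

theorem isBoundedAtImInfty_of_tendsto {f : ℍ → ℂ} {L : ℂ} (h : Tendsto f atImInfty (𝓝 L)) :
    IsBoundedAtImInfty f :=
  h.isBigO_one ℝ

end MaxNorm

open MaxNorm in
theorem eq_const_of_norm_invariant (Γ : Subgroup SL(2, ℤ)) [Γ.FiniteIndex] (g : ℍ → ℂ)
    (hg : ∀ τ : ℍ, DifferentiableAt ℂ (g ∘ UpperHalfPlane.ofComplex) τ)
    (hinv : ∀ γ ∈ Γ, ∀ z : ℍ, ‖g (γ • z)‖ = ‖g z‖)
    (hper : ∀ δ : SL(2, ℤ), ∃ h : ℝ, 0 < h ∧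
      Function.Periodic ((fun w => g (δ • w)) ∘ UpperHalfPlane.ofComplex) h)
    (hlim : ∀ δ : SL(2, ℤ), ∃ L : ℂ,
      Filter.Tendsto (fun w : ℍ => g (δ • w)) UpperHalfPlane.atImInfty (nhds L)) :
    ∃ c : ℂ, ∀ z, g z = c := by
  classical
  choose h hh hperiodic using hper
  choose L hL using hlim
  have : Finite (SL(2, ℤ) ⧸ Γ) := Subgroup.finite_quotient_of_finiteIndex
  let δ : SL(2, ℤ) ⧸ Γ → SL(2, ℤ) := fun x => (Quotient.out x)⁻¹
  let G : SL(2, ℤ) ⧸ Γ → ℂ → ℂ := fun x => cuspFunction (h (δ x)) (fun w => g (δ x • w))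
  have hGd : ∀ x, DifferentiableOn ℂ (G x) (Metric.ball 0 1) := fun x =>
    differentiableOn_cuspFunction_ball (hh _) (hperiodic _) (mdiff_comp_smul g hg _)
      (isBoundedAtImInfty_of_tendsto (hL _))
  have hGeq : ∀ x (w : ℍ), G x (Periodic.qParam (h (δ x)) w) = g (δ x • w) := fun x w =>
    eq_cuspFunction w (hh _).ne' (hperiodic _)
  let r : SL(2, ℤ) ⧸ Γ → ℝ := fun x => Real.exp (-Real.pi / h (δ x))
  have hr1 : ∀ x, r x < 1 := fun x => by
    have : -Real.pi / h (δ x) < 0 := div_neg_of_neg_of_pos (by linarith [Real.pi_pos]) (hh _)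
    exact Real.exp_lt_one_iff.mpr this
  have hr0 : ∀ x, 0 < r x := fun x => Real.exp_pos _
  have hmax : ∀ x, ∃ q ∈ Metric.closedBall (0 : ℂ) (r x),
      IsMaxOn (fun q => ‖G x q‖) (Metric.closedBall (0 : ℂ) (r x)) q := by
    intro x
    have hcont : ContinuousOn (fun q => ‖G x q‖) (Metric.closedBall (0 : ℂ) (r x)) :=
      ((hGd x).continuousOn.mono (Metric.closedBall_subset_ball (hr1 x))).norm
    exact (isCompact_closedBall (0 : ℂ) (r x)).exists_isMaxOn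
      ⟨0, by simp [(hr0 x).le]⟩ hcont
  choose q hq hqmax using hmax
  obtain ⟨x₀, hx₀⟩ := Finite.exists_max (fun x => ‖G x (q x)‖)
  have hbound : ∀ z : ℍ, ‖g z‖ ≤ ‖G x₀ (q x₀)‖ := by
    intro z
    obtain ⟨σ, hσ⟩ := ModularGroup.exists_one_half_le_im_smul z
    obtain ⟨γ, hγ⟩ := QuotientGroup.mk_out_eq_mul Γ σ
    have hz : z = (γ : SL(2, ℤ)) • (δ (QuotientGroup.mk σ) • (σ • z)) := by
      show z = (γ : SL(2, ℤ)) • ((Quotient.out (QuotientGroup.mk σ : SL(2, ℤ) ⧸ Γ))⁻¹ • (σ • z))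
      rw [hγ, ← mul_smul, ← mul_smul]
      simp
    have hqmem : Periodic.qParam (h (δ (QuotientGroup.mk σ))) ((σ • z : ℍ) : ℂ) ∈
        Metric.closedBall (0 : ℂ) (r (QuotientGroup.mk σ)) := by
      rw [mem_closedBall_zero_iff, Periodic.norm_qParam]
      apply Real.exp_le_exp.mpr
      have hpos := hh (δ (QuotientGroup.mk σ))
      rw [div_le_div_iff_of_pos_right hpos]
      have : (1 : ℝ) / 2 ≤ ((σ • z : ℍ) : ℂ).im := hσ
      nlinarith [Real.pi_pos]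
    calc ‖g z‖ = ‖g ((γ : SL(2, ℤ)) • (δ (QuotientGroup.mk σ) • (σ • z)))‖ := by rw [← hz]
      _ = ‖g (δ (QuotientGroup.mk σ) • (σ • z))‖ := hinv _ γ.2 _
      _ = ‖G (QuotientGroup.mk σ) (Periodic.qParam (h (δ (QuotientGroup.mk σ))) ((σ • z : ℍ) : ℂ))‖ := by
          rw [hGeq]
      _ ≤ ‖G (QuotientGroup.mk σ) (q (QuotientGroup.mk σ))‖ := hqmax _ hqmem
      _ ≤ ‖G x₀ (q x₀)‖ := hx₀ _
  have hmaxball : IsMaxOn (norm ∘ G x₀) (Metric.ball 0 1) (q x₀) := by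
    intro p hp
    show ‖G x₀ p‖ ≤ ‖G x₀ (q x₀)‖
    rcases eq_or_ne p 0 with rfl | hp0
    · exact hqmax x₀ (by simp [(hr0 x₀).le])
    · have hp1 : ‖p‖ < 1 := by simpa using hp
      have him := Periodic.im_invQParam_pos_of_norm_lt_one (hh (δ x₀)) hp1 hp0
      have h1 := hGeq x₀ ⟨_, him⟩
      rw [show Periodic.qParam (h (δ x₀)) ((⟨Periodic.invQParam (h (δ x₀)) p, him⟩ : ℍ) : ℂ) = p from
        Periodic.qParam_right_inv (hh _).ne' hp0] at h1
      rw [h1]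
      exact hbound _
  have hconst := Complex.eqOn_of_isPreconnected_of_isMaxOn_norm
    (convex_ball (0 : ℂ) 1).isPreconnected Metric.isOpen_ball (hGd x₀)
    (Metric.closedBall_subset_ball (hr1 x₀) (hq x₀)) hmaxball
  refine ⟨G x₀ (q x₀), fun z => ?_⟩
  have hz : z = δ x₀ • ((δ x₀)⁻¹ • z) := by rw [smul_inv_smul]
  rw [hz, ← hGeq]
  exact hconst (by simpa using Periodic.norm_qParam_lt_one (hh (δ x₀)) (UpperHalfPlane.im_pos _))

end Fermat.Agent.S21
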