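import Mathlib
import Fermat.Prelude.Def_ModularCurve_PeriodHomPair
import Fermat.Agent.S21.Primitive
import Fermat.Agent.S21.Flip
import Fermat.Agent.S21.MaxNorm

set_option autoImplicit false

namespace Fermat.Agent.S21

open Complex Filter Topology
open UpperHalfPlane hiding I
open scoped MatrixGroups ComplexConjugate
open CongruenceSubgroup ModularCurve ModularCurve.Period

/-- If `exp (c * H)` has `Γ`-invariant norm (i.e. `Re (c * H)` is `Γ`-invariant), and `H` is
holomorphic, periodic and convergent at every cusp, then `H' = 0`. -/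
theorem deriv_eq_zero_of_re_invariant (Γ : Subgroup SL(2, ℤ)) [Γ.FiniteIndex]
    (H H' : ℍ → ℂ) (c : ℂ) (hc : c ≠ 0)
    (hH : ∀ τ : ℍ, HasDerivAt (H ∘ ofComplex) (H' τ) τ)
    (hinv : ∀ γ ∈ Γ, ∀ z : ℍ, (c * H (γ • z)).re = (c * H z).re)
    (hper : ∀ δ : SL(2, ℤ), ∃ h : ℝ, 0 < h ∧
      Function.Periodic ((fun w : ℍ => H (δ • w)) ∘ ofComplex) h)
    (hlim : ∀ δ : SL(2, ℤ), ∃ L : ℂ, Tendsto (fun w : ℍ => H (δ • w)) atImInfty (𝓝 L)) :
    ∀ τ : ℍ, H' τ = 0 := by
  set g : ℍ → ℂ := fun z => Complex.exp (c * H z) with hg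
  have hgd : ∀ τ : ℍ, HasDerivAt (g ∘ ofComplex) (Complex.exp (c * H τ) * (c * H' τ)) τ := by
    intro τ
    have h1 : HasDerivAt (fun z : ℂ => c * (H ∘ ofComplex) z) (c * H' τ) τ :=
      (hH τ).const_mul c
    have h2 := h1.cexp
    simpa [hg, Function.comp_def] using h2
  obtain ⟨k, hk⟩ := eq_const_of_norm_invariant Γ g
    (fun τ => (hgd τ).differentiableAt)
    (fun γ hγ z => by
      simp only [hg, Complex.norm_exp]
      rw [hinv γ hγ z])
    (fun δ => by
      obtain ⟨h, hh, hp⟩ := hper δ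
      refine ⟨h, hh, fun z => ?_⟩
      have := hp z
      simp only [Function.comp_apply, hg] at this ⊢
      rw [this])
    (fun δ => by
      obtain ⟨L, hL⟩ := hlim δ
      refine ⟨Complex.exp (c * L), ?_⟩
      have h1 : Tendsto (fun w : ℍ => c * H (δ • w)) atImInfty (𝓝 (c * L)) := hL.const_mul c
      exact (Complex.continuous_exp.tendsto _).comp h1)
  intro τ
  have hconst : g ∘ ofComplex = fun _ => k := funext fun z => hk _
  have h0 : HasDerivAt (g ∘ ofComplex) 0 τ := by
    rw [hconst]; exact hasDerivAt_const _ _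
  have h1 := (hgd τ).unique h0
  have h2 : Complex.exp (c * H τ) ≠ 0 := Complex.exp_ne_zero _
  rcases mul_eq_zero.mp h1 with h | h
  · exact absurd h h2
  · rcases mul_eq_zero.mp h with h | h
    · exact absurd h hc
    · exact h

variable (N : ℕ) [NeZero N]

/-- Key step of Eichler–Shimura injectivity: if `P f + ε • ι (P f) = 0` for a real `ε` then
`f = 0`. -/
theorem eq_zero_of_periodMap_add_smul_charInvolution (f : CuspForm (Gamma0 N) 2) (ε : ℝ)
    (h : periodMap N f + (ε : ℂ) • charInvolution N ℂ ℂ (periodMap N f) = 0) : f = 0 := by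
  obtain ⟨F, -, hF0, hF⟩ := exists_prim N f
  have hEP : HasEquivariantPrimitive N f F := hasEquivariantPrimitive_of_prim N f hF0 hF
  obtain ⟨M, hMpos, hMper⟩ := exists_periodic_prim_smul N f hF
  have hM : (0 : ℝ) < M := by exact_mod_cast hMpos
  set F0 : ℍ → ℂ := cflip F with hF0def
  have hF0d : ∀ τ : ℍ, HasDerivAt (F0 ∘ ofComplex) (-(conj (f (flip τ)))) τ :=
    fun τ => hasDerivAt_cflip τ (hF (flip τ))
  -- invariance of `u = F + ε F ∘ flip`
  have hu : ∀ γ ∈ Gamma0 N, ∀ z : ℍ,
      F (γ • z) + (ε : ℂ) * F (flip (γ • z)) = F z + (ε : ℂ) * F (flip z) := by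
    intro γ hγ z
    have h1 := periodMap_apply' N hEP ⟨γ, hγ⟩ z
    have h2 := periodMap_apply' N hEP (jConjGamma0 N ⟨γ, hγ⟩) (flip z)
    have h3 := congrArg (fun φ : Additive (Gamma0 N) →+ ℂ => φ (Additive.ofMul ⟨γ, hγ⟩)) h
    simp only [AddMonoidHom.add_apply, AddMonoidHom.smul_apply, charInvolution_apply,
      toMul_ofMul, AddMonoidHom.zero_apply, smul_eq_mul] at h3
    rw [h1, h2] at h3
    simp only [jConjGamma0_coe] at h3
    rw [flip_smul]
    linear_combination h3
  have hper1 : ∀ δ : SL(2, ℤ), Function.Periodic ((fun w : ℍ => F0 (δ • w)) ∘ ofComplex) (M : ℝ) :=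
    fun δ => periodic_cflip_smul δ (hMper (jConjSL δ))
  have hlim1 : ∀ δ : SL(2, ℤ), ∃ L : ℂ, Tendsto (fun w : ℍ => F0 (δ • w)) atImInfty (𝓝 L) := by
    intro δ
    obtain ⟨L, hL⟩ := exists_tendsto_prim_smul N f hF (jConjSL δ)
    exact ⟨conj L, tendsto_cflip_smul δ hL⟩
  -- first function: `F + ε F0`, `c = 1`
  have key1 := deriv_eq_zero_of_re_invariant (Gamma0 N) (fun z => F z + (ε : ℂ) * F0 z)
    (fun τ => f τ + (ε : ℂ) * (-(conj (f (flip τ))))) 1 one_ne_zero
    (fun τ => by
      have := (hF τ).add ((hF0d τ).const_mul (ε : ℂ))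
      exact this)
    (fun γ hγ z => by
      have h1 := congrArg Complex.re (hu γ hγ z)
      simp only [one_mul, Complex.add_re, Complex.re_ofReal_mul, hF0def, re_cflip] at h1 ⊢
      exact h1)
    (fun δ => ⟨M, hM, fun z => by
      have h1 := hMper δ z
      have h2 := hper1 δ z
      simp only [Function.comp_apply] at h1 h2 ⊢
      rw [h1, h2]⟩)
    (fun δ => by
      obtain ⟨L1, hL1⟩ := exists_tendsto_prim_smul N f hF δ
      obtain ⟨L2, hL2⟩ := hlim1 δ
      exact ⟨L1 + (ε : ℂ) * L2, hL1.add (hL2.const_mul _)⟩)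
  -- second function: `F - ε F0`, `c = -I`
  have key2 := deriv_eq_zero_of_re_invariant (Gamma0 N) (fun z => F z - (ε : ℂ) * F0 z)
    (fun τ => f τ - (ε : ℂ) * (-(conj (f (flip τ))))) (-Complex.I)
    (neg_ne_zero.mpr Complex.I_ne_zero)
    (fun τ => by
      have := (hF τ).sub ((hF0d τ).const_mul (ε : ℂ))
      exact this)
    (fun γ hγ z => by
      have h1 := congrArg Complex.im (hu γ hγ z)
      simp only [Complex.add_im, Complex.im_ofReal_mul] at h1
      simp only [neg_mul, Complex.neg_re, Complex.I_mul_re, Complex.sub_im, Complex.im_ofReal_mul,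
        hF0def, im_cflip, neg_neg]
      linarith)
    (fun δ => ⟨M, hM, fun z => by
      have h1 := hMper δ z
      have h2 := hper1 δ z
      simp only [Function.comp_apply] at h1 h2 ⊢
      rw [h1, h2]⟩)
    (fun δ => by
      obtain ⟨L1, hL1⟩ := exists_tendsto_prim_smul N f hF δ
      obtain ⟨L2, hL2⟩ := hlim1 δ
      exact ⟨L1 - (ε : ℂ) * L2, hL1.sub (hL2.const_mul _)⟩)
  ext τ
  have e1 : f τ + (ε : ℂ) * (-(conj (f (flip τ)))) = 0 := key1 τ
  have e2 : f τ - (ε : ℂ) * (-(conj (f (flip τ)))) = 0 := key2 τ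
  have : (2 : ℂ) * f τ = 0 := by linear_combination e1 + e2
  have h2 : (2 : ℂ) ≠ 0 := two_ne_zero
  simpa using (mul_eq_zero.mp this).resolve_left h2

/-- **Eichler–Shimura injectivity** for the pair map of the prelude. -/
theorem periodHomPair_injective : Function.Injective (periodHomPair N) := by
  rw [← LinearMap.ker_eq_bot, LinearMap.ker_eq_bot']
  rintro ⟨f, g⟩ hfg
  rw [periodHomPair_eq] at hfg
  simp only [LinearMap.coprod_apply, LinearMap.comp_apply, LinearMap.add_apply,
    LinearMap.sub_apply, LinearMap.id_apply, periodMapLin_apply] at hfg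
  -- apply the involution
  have hι := congrArg (charInvolution N ℂ ℂ) hfg
  simp only [map_add, map_sub, map_zero, charInvolution_charInvolution] at hι
  have hf : periodMap N f + ((1 : ℝ) : ℂ) • charInvolution N ℂ ℂ (periodMap N f) = 0 := by
    have h2 : (2 : ℂ) • (periodMap N f + charInvolution N ℂ ℂ (periodMap N f)) = 0 := by
      rw [two_smul]
      have := congrArg₂ (· + ·) hfg hι
      simp only [add_zero] at this
      rw [← this]; abel
    have h3 := (smul_eq_zero.mp h2).resolve_left two_ne_zero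
    simpa using h3
  have hg : periodMap N g + ((-1 : ℝ) : ℂ) • charInvolution N ℂ ℂ (periodMap N g) = 0 := by
    have h2 : (2 : ℂ) • (periodMap N g - charInvolution N ℂ ℂ (periodMap N g)) = 0 := by
      rw [two_smul]
      have := congrArg₂ (· - ·) hfg hι
      simp only [sub_zero] at this
      rw [← this]; abel
    have h3 := (smul_eq_zero.mp h2).resolve_left two_ne_zero
    simpa [sub_eq_add_neg] using h3
  rw [eq_zero_of_periodMap_add_smul_charInvolution N f 1 hf,
    eq_zero_of_periodMap_add_smul_charInvolution N g (-1) hg]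
  rfl

end Fermat.Agent.S21
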