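import Mathlib
import Fermat.Prelude.Def_ModularCurve_PeriodHomPair

set_option autoImplicit false

open UpperHalfPlane CongruenceSubgroup Filter Topology ModularCurve ModularCurve.Period
open scoped MatrixGroups

namespace Fermat.Agent.S21.Parabolic

/-- translation by a real number tends to `i∞`. -/
theorem tendsto_vadd_atImInfty (x : ℝ) :
    Tendsto (fun w : ℍ => x +ᵥ w) atImInfty atImInfty := by
  rw [atImInfty, tendsto_comap_iff]
  have : (UpperHalfPlane.im ∘ fun w : ℍ => x +ᵥ w) = UpperHalfPlane.im := by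
    funext w
    simp [UpperHalfPlane.vadd_im]
  rw [this]
  exact tendsto_comap

/-- Core: the period of an equivariant primitive vanishes on `± δ T^m δ⁻¹`. -/
theorem period_eq_zero_of_conj {N : ℕ} {f : CuspForm (Gamma0 N) 2} {F : ℍ → ℂ}
    (hF : HasEquivariantPrimitive N f F) (γ : Gamma0 N) (δ : SL(2, ℤ)) (m : ℤ)
    (hγ : (γ : SL(2, ℤ)) = δ * ModularGroup.T ^ m * δ⁻¹ ∨
      (γ : SL(2, ℤ)) = -(δ * ModularGroup.T ^ m * δ⁻¹)) :
    hF.2.2.1.period γ = 0 := by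
  obtain ⟨L, hL⟩ := hF.2.2.2 δ
  set c := hF.2.2.1.period γ with hc
  -- the action of `γ` on `δ • w`
  have hact : ∀ w : ℍ, (γ : SL(2, ℤ)) • (δ • w) = δ • ((m : ℝ) +ᵥ w) := by
    intro w
    have h1 : (δ * ModularGroup.T ^ m * δ⁻¹) • (δ • w) = δ • ((m : ℝ) +ᵥ w) := by
      rw [← mul_smul, mul_assoc, mul_assoc, inv_mul_cancel, mul_one, mul_smul,
        UpperHalfPlane.modular_T_zpow_smul]
    rcases hγ with h | h
    · rw [h, h1]
    · rw [h, ModularGroup.SL_neg_smul, h1]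
  have hconst : ∀ w : ℍ, F (δ • ((m : ℝ) +ᵥ w)) - F (δ • w) = c := by
    intro w
    rw [← hact w]
    exact hF.2.2.1.sub_eq_period γ (δ • w)
  have h2 : Tendsto (fun w : ℍ => F (δ • ((m : ℝ) +ᵥ w)) - F (δ • w)) atImInfty (𝓝 (L - L)) :=
    (hL.comp (tendsto_vadd_atImInfty (m : ℝ))).sub hL
  have h3 : Tendsto (fun _ : ℍ => c) atImInfty (𝓝 (L - L)) := by
    refine h2.congr fun w => hconst w
  have hne : (atImInfty : Filter ℍ).NeBot := by
    rw [atImInfty]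
    refine Filter.comap_neBot fun s hs => ?_
    obtain ⟨a, ha⟩ := Filter.mem_atTop_sets.mp hs
    refine ⟨⟨⟨0, max a 1⟩, by positivity⟩, ha _ ?_⟩
    show a ≤ max a 1
    exact le_max_left _ _
  have h4 : c = L - L := tendsto_nhds_unique tendsto_const_nhds h3
  rw [h4, sub_self]

/-- an element of `SL(2,ℤ)` of trace `2` is conjugate to a power of `T`. -/
theorem exists_conj_T_zpow_of_trace_eq_two (γ : SL(2, ℤ))
    (h : (γ : Matrix (Fin 2) (Fin 2) ℤ).trace = 2) :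
    ∃ (δ : SL(2, ℤ)) (m : ℤ), γ = δ * ModularGroup.T ^ m * δ⁻¹ := by
  have htr : γ 0 0 + γ 1 1 = 2 := by
    rw [Matrix.trace_fin_two] at h
    exact h
  have hdet : γ 0 0 * γ 1 1 - γ 0 1 * γ 1 0 = 1 := by
    have := γ.det_coe
    rw [Matrix.det_fin_two] at this
    exact this
  -- a primitive left eigenvector `(x, y)`
  obtain ⟨x, y, hxy, h1, h2⟩ : ∃ x y : ℤ, IsCoprime x y ∧
      x * (γ 0 0 - 1) + y * γ 1 0 = 0 ∧ x * γ 0 1 + y * (γ 1 1 - 1) = 0 := by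
    by_cases h0 : γ 1 0 = 0 ∧ 1 - γ 0 0 = 0
    · refine ⟨0, 1, isCoprime_zero_left.mpr isUnit_one, ?_, ?_⟩
      · rw [h0.1]; ring
      · have : γ 1 1 = 1 := by linarith [h0.2]
        rw [this]; ring
    · have hpos : 0 < Int.gcd (γ 1 0) (1 - γ 0 0) := by
        rw [Int.gcd_pos_iff]
        by_contra hcon
        rw [not_or, not_not, not_not] at hcon
        exact h0 hcon
      obtain ⟨x, y, hg, hx, hy⟩ := Int.exists_gcd_one hpos
      have hgne : (Int.gcd (γ 1 0) (1 - γ 0 0) : ℤ) ≠ 0 := by exact_mod_cast hpos.ne'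
      refine ⟨x, y, Int.isCoprime_iff_gcd_eq_one.mpr hg, ?_, ?_⟩
      · apply mul_right_cancel₀ hgne
        rw [zero_mul]
        linear_combination (γ 0 0 - 1) * (-hx) + γ 1 0 * (-hy)
      · apply mul_right_cancel₀ hgne
        rw [zero_mul]
        linear_combination (-(γ 0 1)) * hx - (γ 1 1 - 1) * hy - hdet + htr
  obtain ⟨s, t, hst⟩ := hxy
  obtain ⟨g₀, hg00, hg01, hg10, hg11⟩ : ∃ g₀ : SL(2, ℤ),
      g₀ 0 0 = t ∧ g₀ 0 1 = -s ∧ g₀ 1 0 = x ∧ g₀ 1 1 = y :=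
    ⟨⟨!![t, -s; x, y], by rw [Matrix.det_fin_two_of]; linarith⟩, rfl, rfl, rfl, rfl⟩
  refine ⟨g₀⁻¹, (g₀ * γ * g₀⁻¹) 0 1, ?_⟩
  have hM : g₀ * γ * g₀⁻¹ = ModularGroup.T ^ ((g₀ * γ * g₀⁻¹) 0 1) := by
    apply Subtype.ext
    rw [ModularGroup.coe_T_zpow]
    have e00 : (g₀ * γ * g₀⁻¹) 0 0 = 1 := by
      simp only [Matrix.SpecialLinearGroup.coe_mul, Matrix.SpecialLinearGroup.coe_inv,
        Matrix.adjugate_fin_two, Matrix.mul_apply, Fin.sum_univ_two, Matrix.of_apply,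
        Matrix.cons_val_zero, Matrix.cons_val_one, Matrix.cons_val', Matrix.cons_val_fin_one,
        hg00, hg01, hg10, hg11]
      linear_combination (γ 0 0 + γ 1 1) * hst + htr - (s * h1 + t * h2 + hst)
    have e10 : (g₀ * γ * g₀⁻¹) 1 0 = 0 := by
      simp only [Matrix.SpecialLinearGroup.coe_mul, Matrix.SpecialLinearGroup.coe_inv,
        Matrix.adjugate_fin_two, Matrix.mul_apply, Fin.sum_univ_two, Matrix.of_apply,
        Matrix.cons_val_zero, Matrix.cons_val_one, Matrix.cons_val', Matrix.cons_val_fin_one,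
        hg00, hg01, hg10, hg11]
      linear_combination y * h1 - x * h2
    have e11 : (g₀ * γ * g₀⁻¹) 1 1 = 1 := by
      simp only [Matrix.SpecialLinearGroup.coe_mul, Matrix.SpecialLinearGroup.coe_inv,
        Matrix.adjugate_fin_two, Matrix.mul_apply, Fin.sum_univ_two, Matrix.of_apply,
        Matrix.cons_val_zero, Matrix.cons_val_one, Matrix.cons_val', Matrix.cons_val_fin_one,
        hg00, hg01, hg10, hg11]
      linear_combination s * h1 + t * h2 + hst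
    ext i j
    fin_cases i <;> fin_cases j
    · simpa using e00
    · simp
    · simpa using e10
    · simpa using e11
  rw [← hM]
  group

/-- an element of `SL(2,ℤ)` with `trace^2 = 4` is `± δ T^m δ⁻¹`. -/
theorem exists_conj_T_zpow_of_trace_sq (γ : SL(2, ℤ))
    (h : (γ : Matrix (Fin 2) (Fin 2) ℤ).trace ^ 2 = 4) :
    ∃ (δ : SL(2, ℤ)) (m : ℤ), γ = δ * ModularGroup.T ^ m * δ⁻¹ ∨ γ = -(δ * ModularGroup.T ^ m * δ⁻¹) := by
  have h' : (γ : Matrix (Fin 2) (Fin 2) ℤ).trace = 2 ∨ (γ : Matrix (Fin 2) (Fin 2) ℤ).trace = -2 := by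
    have h2 : ((γ : Matrix (Fin 2) (Fin 2) ℤ).trace - 2) * ((γ : Matrix (Fin 2) (Fin 2) ℤ).trace + 2) = 0 := by
      linear_combination h
    rcases mul_eq_zero.mp h2 with h3 | h3
    · left; linarith
    · right; linarith
  rcases h' with h2 | h2
  · obtain ⟨δ, m, hδ⟩ := exists_conj_T_zpow_of_trace_eq_two γ h2
    exact ⟨δ, m, Or.inl hδ⟩
  · have h3 : ((-γ : SL(2, ℤ)) : Matrix (Fin 2) (Fin 2) ℤ).trace = 2 := by
      rw [Matrix.SpecialLinearGroup.coe_neg, Matrix.trace_neg, h2]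
      norm_num
    obtain ⟨δ, m, hδ⟩ := exists_conj_T_zpow_of_trace_eq_two (-γ) h3
    refine ⟨δ, m, Or.inr ?_⟩
    rw [← hδ, neg_neg]

theorem periodMap_mem_parabolicHoms (N : ℕ) [NeZero N] (f : CuspForm (Gamma0 N) 2) :
    periodMap N f ∈ parabolicHoms ℂ (Gamma0 N) ℂ := by
  by_cases h : ∃ F : ℍ → ℂ, HasEquivariantPrimitive N f F
  · obtain ⟨F, hF⟩ := h
    obtain ⟨F₀, h₀, heq⟩ := periodMap_def N f hF
    rw [heq, mem_parabolicHoms_iff]
    intro γ hγ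
    obtain ⟨δ, m, hδ⟩ := exists_conj_T_zpow_of_trace_sq (γ : SL(2, ℤ)) hγ
    rw [IsEquivariantPrimitive.periodHom_apply]
    exact period_eq_zero_of_conj h₀ γ δ m hδ
  · have h0 : periodMap N f = 0 := by
      unfold periodMap
      rw [dif_neg h]
    rw [h0]
    exact Submodule.zero_mem _

/-- `δ T^N δ⁻¹` lies in `Γ₀(N)`. -/
theorem conj_T_pow_mem_Gamma0 (N : ℕ) (δ : SL(2, ℤ)) :
    δ * ModularGroup.T ^ (N : ℤ) * δ⁻¹ ∈ Gamma0 N := by
  rw [Gamma0_mem]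
  have key : ((δ * ModularGroup.T ^ (N : ℤ) * δ⁻¹ : SL(2, ℤ)) : Matrix (Fin 2) (Fin 2) ℤ) 1 0 =
      -(δ 1 0) ^ 2 * (N : ℤ) := by
    simp only [Matrix.SpecialLinearGroup.coe_mul, Matrix.SpecialLinearGroup.coe_inv,
      Matrix.adjugate_fin_two, ModularGroup.coe_T_zpow, Matrix.mul_apply, Fin.sum_univ_two,
      Matrix.of_apply, Matrix.cons_val_zero, Matrix.cons_val_one, Matrix.cons_val',
      Matrix.cons_val_fin_one]
    ring
  rw [key]
  push_cast
  simp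

/-- translates of the primitive are `N`-periodic. -/
theorem primitive_smul_vadd {N : ℕ} [NeZero N] {f : CuspForm (Gamma0 N) 2} {F : ℍ → ℂ}
    (hF : HasEquivariantPrimitive N f F) (δ : SL(2, ℤ)) (w : ℍ) :
    F (δ • ((N : ℝ) +ᵥ w)) = F (δ • w) := by
  let γ : Gamma0 N := ⟨δ * ModularGroup.T ^ (N : ℤ) * δ⁻¹, conj_T_pow_mem_Gamma0 N δ⟩
  have h0 : hF.2.2.1.period γ = 0 := period_eq_zero_of_conj hF γ δ (N : ℤ) (Or.inl rfl)
  have h1 := hF.2.2.1.sub_eq_period γ (δ • w)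
  rw [h0, sub_eq_zero] at h1
  rw [← h1]
  congr 1
  show δ • ((N : ℝ) +ᵥ w) = (δ * ModularGroup.T ^ (N : ℤ) * δ⁻¹) • (δ • w)
  rw [← mul_smul, mul_assoc, mul_assoc, inv_mul_cancel, mul_one, mul_smul,
    UpperHalfPlane.modular_T_zpow_smul]
  norm_cast

end Fermat.Agent.S21.Parabolic
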