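import Mathlib
import Fermat.Prelude.Def_ModularCurve_PeriodHomPair
import Fermat.Prelude.Def_ModularCurve_GenusNumerics
import Fermat.Agent.S21.Injective
import Fermat.Agent.S21.RangeLe

set_option autoImplicit false

namespace Fermat.Agent.S21

open scoped MatrixGroups
open CongruenceSubgroup ModularCurve ModularCurve.Period

/-- Eichler–Shimura injectivity embeds `S₂ × S₂` into the parabolic classes; hence any bound
`dim H¹_par ≤ 2g` gives finite-dimensionality of `S₂(Γ₀(N))` and `dim S₂(Γ₀(N)) ≤ g`. -/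
theorem finrank_cuspForm_le_of_parabolicHoms (N : ℕ) [NeZero N]
    (hfin : Module.Finite ℂ (parabolicHoms ℂ (Gamma0 N) ℂ))
    (hdim : (Module.finrank ℂ (parabolicHoms ℂ (Gamma0 N) ℂ) : ℚ) ≤ 2 * genusFormula N) :
    FiniteDimensional ℂ (CuspForm (Gamma0 N) 2) ∧
      (Module.finrank ℂ (CuspForm (Gamma0 N) 2) : ℚ) ≤ genusFormula N := by
  have hinj := periodHomPair_injective N
  have hle := range_periodHomPair_le N
  let φ : (CuspForm (Gamma0 N) 2 × CuspForm (Gamma0 N) 2) →ₗ[ℂ] parabolicHoms ℂ (Gamma0 N) ℂ :=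
    (periodHomPair N).codRestrict _ (fun x => hle (LinearMap.mem_range_self _ x))
  have hφ : Function.Injective φ := fun x y hxy => hinj (by
    have := congrArg Subtype.val hxy
    simpa [φ] using this)
  haveI : FiniteDimensional ℂ (CuspForm (Gamma0 N) 2 × CuspForm (Gamma0 N) 2) :=
    FiniteDimensional.of_injective φ hφ
  haveI hS : FiniteDimensional ℂ (CuspForm (Gamma0 N) 2) :=
    FiniteDimensional.of_injective (LinearMap.inl ℂ (CuspForm (Gamma0 N) 2) (CuspForm (Gamma0 N) 2))
      LinearMap.inl_injective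
  refine ⟨hS, ?_⟩
  have h1 : Module.finrank ℂ (CuspForm (Gamma0 N) 2 × CuspForm (Gamma0 N) 2)
      ≤ Module.finrank ℂ (parabolicHoms ℂ (Gamma0 N) ℂ) :=
    LinearMap.finrank_le_finrank_of_injective hφ
  rw [Module.finrank_prod] at h1
  have h2 : ((Module.finrank ℂ (CuspForm (Gamma0 N) 2)
      + Module.finrank ℂ (CuspForm (Gamma0 N) 2) : ℕ) : ℚ) ≤ 2 * genusFormula N :=
    le_trans (by exact_mod_cast h1) hdim
  push_cast at h2
  linarith

end Fermat.Agent.S21
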