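import Mathlib
import Fermat.Agent.S21.UpperBound
import Fermat.Agent.S21.Shapiro

set_option autoImplicit false

namespace Fermat.Agent.S21

open scoped MatrixGroups
open CongruenceSubgroup ModularCurve ModularCurve.Period

/-- `S₂(Γ₀(N))` is finite-dimensional of dimension at most the genus formula (unconditional:
Eichler–Shimura injectivity plus the bound `dim H¹_par(Γ₀(N), ℂ) ≤ 2g`). -/
theorem finrank_cuspForm_le (N : ℕ) [NeZero N] :
    FiniteDimensional ℂ (CuspForm (Gamma0 N) 2) ∧
      (Module.finrank ℂ (CuspForm (Gamma0 N) 2) : ℚ) ≤ genusFormula N :=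
  finrank_cuspForm_le_of_parabolicHoms N (finrank_parabolicHoms_le N).1
    (finrank_parabolicHoms_le N).2

/-- Eichler–Shimura from the single missing inequality `g ≤ dim S₂(Γ₀(N))`. -/
theorem eichlerShimura_of_genus_le (N : ℕ) [NeZero N]
    (h : genusFormula N ≤ (Module.finrank ℂ (CuspForm (Gamma0 N) 2) : ℚ)) :
    Function.Injective (periodHomPair N)
      ∧ LinearMap.range (periodHomPair N) = parabolicHoms ℂ (Gamma0 N) ℂ := by
  refine ⟨periodHomPair_injective N, ?_⟩
  obtain ⟨hfin, hdim⟩ := finrank_parabolicHoms_le N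
  haveI := hfin
  haveI := (finrank_cuspForm_le N).1
  have hinj := periodHomPair_injective N
  have hle := range_periodHomPair_le N
  have h1 : Module.finrank ℂ (LinearMap.range (periodHomPair N))
      = 2 * Module.finrank ℂ (CuspForm (Gamma0 N) 2) := by
    rw [LinearMap.finrank_range_of_inj hinj, Module.finrank_prod, two_mul]
  have h2 : Module.finrank ℂ (parabolicHoms ℂ (Gamma0 N) ℂ)
      ≤ 2 * Module.finrank ℂ (CuspForm (Gamma0 N) 2) := by
    have : (Module.finrank ℂ (parabolicHoms ℂ (Gamma0 N) ℂ) : ℚ)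
        ≤ ((2 * Module.finrank ℂ (CuspForm (Gamma0 N) 2) : ℕ) : ℚ) := by
      push_cast
      linarith
    exact_mod_cast this
  exact Submodule.eq_of_le_of_finrank_le hle (by rw [h1]; exact h2)

end Fermat.Agent.S21
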