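import Mathlib
import Fermat.Agent.Lib.GoodBasis
import Fermat.Agent.Lib.EllipticCount
import Fermat.Agent.Lib.GenusArithLb
import Fermat.Agent.Lib.VVCusp
import Fermat.Agent.Lib.CuspDual
import Fermat.Agent.S21.Bounds

set_option autoImplicit false

/-!
# The lower bound `g(X₀(N)) ≤ dim S₂(Γ₀(N))`

Wiring of the graded-module programme: a good homogeneous basis of `M(Γ₀(N))` over the level-one
forms (`Lib/GoodBasis`), the elliptic counts (`Lib/EllipticCount`), the weight sum
(`Lib/VVCusp`), the dual basis (`Lib/CuspDual`) and the final arithmetic (`Lib/GenusArithLb`).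
Together with `Fermat.Agent.S21.finrank_cuspForm_le` this gives the dimension formula, and with
`eichlerShimura_of_genus_le` the Eichler–Shimura isomorphism.
-/

namespace Fermat.Agent.S21

open UpperHalfPlane Fermat.Agent.S23
open scoped MatrixGroups ModularForm Manifold

/-- The genus formula is a lower bound for the dimension of `S₂(Γ₀(N))`. -/
theorem genusFormula_le_finrank_cuspForm (N : ℕ) [NeZero N] :
    ModularCurve.genusFormula N
      ≤ (Module.finrank ℂ (CuspForm (CongruenceSubgroup.Gamma0 N) 2) : ℚ) := by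
  obtain ⟨n, k, F, hF, hgen, hind, hinv, hcard, heven, h0le, hzero⟩ :=
    Fermat.Agent.Lib.GoodBasis.exists_good_basis' N
  have : FiniteDimensional ℂ (CuspForm (CongruenceSubgroup.Gamma0 N) 2) :=
    (finrank_cuspForm_le N).1
  have hle := Fermat.Agent.Lib.CuspDual.weight_le_ten N k F hF hgen hind hinv hcard
  have hdim := Fermat.Agent.Lib.CuspDual.natCard_ten_le_finrank N k F hF hgen hind hinv hcard
  exact Fermat.Agent.Lib.GenusArithLb.genusFormula_le_finrank_of_one_le' N k heven h0le hle
    hzero.ge hcard
    (Fermat.Agent.Lib.EllipticCount.two_mul_card_four_dvd k F hF hcard (hinv _))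
    (Fermat.Agent.Lib.EllipticCount.three_mul_card_six_dvd k F hF hcard (hinv _))
    (Fermat.Agent.Lib.EllipticCount.card_two_mod_six_eq k F hF hcard (hinv _))
    (Fermat.Agent.Lib.VVCusp.sum_weights N k F hF hgen hinv hcard).ge
    (by rw [← Nat.card_eq_fintype_card]; exact hdim)

/-- The dimension formula `dim S₂(Γ₀(N)) = g(X₀(N))`. -/
theorem finrank_cuspForm_eq_genusFormula (N : ℕ) [NeZero N] :
    (Module.finrank ℂ (CuspForm (CongruenceSubgroup.Gamma0 N) 2) : ℚ)
      = ModularCurve.genusFormula N :=
  le_antisymm (finrank_cuspForm_le N).2 (genusFormula_le_finrank_cuspForm N)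

end Fermat.Agent.S21
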