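import Mathlib

set_option autoImplicit false

namespace Fermat.Agent.S21

open Matrix ModularGroup
open scoped MatrixGroups

namespace ParabolicConj

/-- If `γ ∈ SL(2,ℤ)` fixes the coprime column `(p, r)` and has trace `2`, it is a conjugate of
a power of `T`. -/
theorem conj_of_fixed (γ : SL(2,ℤ)) (htr : γ 0 0 + γ 1 1 = 2) (p r : ℤ) (hpr : IsCoprime p r)
    (h1 : γ 0 0 * p + γ 0 1 * r = p) (h2 : γ 1 0 * p + γ 1 1 * r = r) :
    ∃ (δ : SL(2,ℤ)) (m : ℤ), γ = δ * ModularGroup.T ^ m * δ⁻¹ := by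
  obtain ⟨u, v, huv⟩ := hpr
  -- u * p + v * r = 1 ; δ = [p, -v; r, u]
  have hdet : p * u - (-v) * r = 1 := by linarith
  let δ : SL(2,ℤ) := ⟨!![p, -v; r, u], by rw [Matrix.det_fin_two_of]; linarith⟩
  set a := γ 0 0 with ha
  set b := γ 0 1 with hb
  set c := γ 1 0 with hc
  set d := γ 1 1 with hd
  let m : ℤ := u * (a * (-v) + b * u) - (-v) * (c * (-v) + d * u)
  have hM11 : -r * (a * (-v) + b * u) + p * (c * (-v) + d * u) = 1 := by
    linear_combination (a + d - 1) * hdet + htr - u * h1 + (-v) * h2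
  refine ⟨δ, m, ?_⟩
  have key : γ * δ = δ * ModularGroup.T ^ m := by
    apply Subtype.ext
    rw [Matrix.SpecialLinearGroup.coe_mul, Matrix.SpecialLinearGroup.coe_mul,
      ModularGroup.coe_T_zpow]
    have hδ : (δ : Matrix (Fin 2) (Fin 2) ℤ) = !![p, -v; r, u] := rfl
    have hγ : (γ : Matrix (Fin 2) (Fin 2) ℤ) = !![a, b; c, d] := by
      ext i j; fin_cases i <;> fin_cases j <;> rfl
    rw [hδ, hγ, Matrix.mul_fin_two, Matrix.mul_fin_two]
    have e01 : a * (-v) + b * u = p * m + -v * 1 := by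
      have : p * m + -v - (a * (-v) + b * u)
          = (-v) * (1 - (-r * (a * (-v) + b * u) + p * (c * (-v) + d * u))) := by
        simp only [m]
        linear_combination (a * (-v) + b * u) * hdet
      rw [hM11] at this
      linarith
    have e11 : c * (-v) + d * u = r * m + u * 1 := by
      have : r * m + u - (c * (-v) + d * u)
          = u * (1 - (-r * (a * (-v) + b * u) + p * (c * (-v) + d * u))) := by
        simp only [m]
        linear_combination (c * (-v) + d * u) * hdet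
      rw [hM11] at this
      linarith
    have e00 : a * p + b * r = p * 1 + -v * 0 := by linarith
    have e10 : c * p + d * r = r * 1 + u * 0 := by linarith
    rw [e00, e01, e10, e11]
  rw [← key]
  group

/-- Trace `2` elements of `SL(2,ℤ)` are conjugates of powers of `T`. -/
theorem conj_of_trace_two (γ : SL(2,ℤ)) (htr : γ 0 0 + γ 1 1 = 2) :
    ∃ (δ : SL(2,ℤ)) (m : ℤ), γ = δ * ModularGroup.T ^ m * δ⁻¹ := by
  have hdet : γ 0 0 * γ 1 1 - γ 0 1 * γ 1 0 = 1 := by
    have := γ.det_coe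
    rw [Matrix.det_fin_two] at this
    exact this
  set a := γ 0 0 with ha
  set b := γ 0 1 with hb
  set c := γ 1 0 with hc
  set d := γ 1 1 with hd
  by_cases hbt : b = 0 ∧ d - 1 = 0
  · -- fixed vector (0, 1)
    obtain ⟨hb0, hd1⟩ := hbt
    refine conj_of_fixed γ htr 0 1 (isCoprime_zero_left.mpr isUnit_one) ?_ ?_
    · rw [← hb, hb0]; ring
    · rw [← hd]; linarith
  · -- fixed vector (b, d - 1) / gcd
    have hg : Int.gcd b (d - 1) ≠ 0 := by
      intro h0
      rw [Int.gcd_eq_zero_iff] at h0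
      exact hbt h0
    have hgz : ((Int.gcd b (d - 1) : ℕ) : ℤ) ≠ 0 := by exact_mod_cast hg
    obtain ⟨p, hp⟩ : ((Int.gcd b (d - 1) : ℕ) : ℤ) ∣ b := Int.gcd_dvd_left _ _
    obtain ⟨r, hr⟩ : ((Int.gcd b (d - 1) : ℕ) : ℤ) ∣ (d - 1) := Int.gcd_dvd_right _ _
    set g : ℤ := ((Int.gcd b (d - 1) : ℕ) : ℤ) with hgdef
    have hcop : IsCoprime p r := by
      have h1 : IsCoprime (b / g) ((d - 1) / g) :=
        Int.isCoprime_iff_gcd_eq_one.mpr (Int.gcd_ediv_gcd_ediv_gcd (Nat.pos_of_ne_zero hg))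
      rwa [show b / g = p by rw [hp]; exact Int.mul_ediv_cancel_left _ hgz,
        show (d - 1) / g = r by rw [hr]; exact Int.mul_ediv_cancel_left _ hgz] at h1
    refine conj_of_fixed γ htr p r hcop ?_ ?_
    · apply mul_left_cancel₀ hgz
      rw [← ha, ← hb]
      have : g * (a * p + b * r) = a * (g * p) + b * (g * r) := by ring
      rw [this, ← hp, ← hr]
      linear_combination b * htr
    · apply mul_left_cancel₀ hgz
      rw [← hc, ← hd]
      have : g * (c * p + d * r) = c * (g * p) + d * (g * r) := by ring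
      rw [this, ← hp, ← hr]
      linear_combination d * htr - hdet

end ParabolicConj

open ParabolicConj in
theorem exists_conj_T_zpow (γ : SL(2,ℤ))
    (h : (γ : Matrix (Fin 2) (Fin 2) ℤ).trace ^ 2 = 4) :
    ∃ (δ : SL(2,ℤ)) (m : ℤ),
      γ = δ * ModularGroup.T ^ m * δ⁻¹ ∨ γ = -(δ * ModularGroup.T ^ m * δ⁻¹) := by
  have htr : (γ : Matrix (Fin 2) (Fin 2) ℤ).trace = γ 0 0 + γ 1 1 := by
    rw [Matrix.trace_fin_two]
  rw [htr] at h
  have h' : (γ 0 0 + γ 1 1 - 2) * (γ 0 0 + γ 1 1 + 2) = 0 := by linear_combination h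
  rcases mul_eq_zero.mp h' with h2 | h2
  · obtain ⟨δ, m, hδ⟩ := conj_of_trace_two γ (by linarith)
    exact ⟨δ, m, Or.inl hδ⟩
  · obtain ⟨δ, m, hδ⟩ := conj_of_trace_two (-γ) (by
      simp only [Matrix.SpecialLinearGroup.coe_neg, Matrix.neg_apply]
      linarith)
    refine ⟨δ, m, Or.inr ?_⟩
    rw [← hδ, neg_neg]

end Fermat.Agent.S21
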