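import Mathlib
import Fermat.Prelude.Def_ModularCurve_PeriodHomPair

set_option autoImplicit false

open UpperHalfPlane CongruenceSubgroup Filter Topology ModularCurve ModularCurve.Period
open scoped MatrixGroups Manifold ComplexConjugate Modular

namespace Fermat.Agent.S21.Harmonic

local notation "𝕢" => Function.Periodic.qParam


/-- Maximum principle for `α + conj β` with `α, β` holomorphic. -/
theorem harmonic_max {U : Set ℂ} (hU : IsOpen U) (hUc : IsPreconnected U) {α β : ℂ → ℂ}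
    (hα : DifferentiableOn ℂ α U) (hβ : DifferentiableOn ℂ β U) {q0 : ℂ} (hq0 : q0 ∈ U)
    (hmax : ∀ q ∈ U, ‖α q + conj (β q)‖ ≤ ‖α q0 + conj (β q0)‖) :
    ∀ q ∈ U, α q + conj (β q) = α q0 + conj (β q0) := by
  set c : ℂ := α q0 + conj (β q0) with hc
  set h : ℂ → ℂ := fun q => conj c * α q + c * β q with hh
  have hre : ∀ q, (h q).re = (conj c * (α q + conj (β q))).re := by
    intro q
    simp only [hh, Complex.add_re, Complex.mul_re, Complex.conj_re, Complex.conj_im, mul_add]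
    ring
  have hhd : DifferentiableOn ℂ (fun q => Complex.exp (h q)) U :=
    ((hα.const_mul (conj c)).add (hβ.const_mul c)).cexp
  have hc2 : (conj c * c).re = ‖c‖ ^ 2 := by
    rw [Complex.conj_mul']; norm_cast
  have hle : ∀ q ∈ U, (h q).re ≤ (h q0).re := by
    intro q hq
    rw [hre, hre, ← hc, hc2]
    calc (conj c * (α q + conj (β q))).re ≤ ‖conj c * (α q + conj (β q))‖ := Complex.re_le_norm _
      _ = ‖c‖ * ‖α q + conj (β q)‖ := by rw [norm_mul, Complex.norm_conj]
      _ ≤ ‖c‖ * ‖c‖ := by gcongr; exact hmax q hq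
      _ = ‖c‖ ^ 2 := by ring
  have hm : IsMaxOn (norm ∘ fun q => Complex.exp (h q)) U q0 := by
    intro q hq
    simp only [Function.comp_apply, Complex.norm_exp, Set.mem_ofPred_eq]
    exact Real.exp_le_exp.mpr (hle q hq)
  have heq := Complex.eqOn_of_isPreconnected_of_isMaxOn_norm hUc hU hhd hq0 hm
  intro q hq
  have h1 : ‖Complex.exp (h q)‖ = ‖Complex.exp (h q0)‖ := by
    have := heq hq
    simp only [Function.const_apply] at this
    rw [this]
  rw [Complex.norm_exp, Complex.norm_exp, Real.exp_eq_exp] at h1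
  rw [hre, hre, ← hc, hc2] at h1
  set w : ℂ := α q + conj (β q) with hw
  have hwle : ‖w‖ ≤ ‖c‖ := hmax q hq
  have h2 : Complex.normSq (w - c) = Complex.normSq w - Complex.normSq c := by
    rw [Complex.normSq_sub]
    have : (w * conj c).re = ‖c‖ ^ 2 := by rw [mul_comm]; exact h1
    rw [this, Complex.normSq_eq_norm_sq c]
    ring
  have h3 : Complex.normSq (w - c) ≤ 0 := by
    rw [h2, Complex.normSq_eq_norm_sq, Complex.normSq_eq_norm_sq]
    have := pow_le_pow_left₀ (norm_nonneg w) hwle 2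
    linarith
  have h4 : Complex.normSq (w - c) = 0 := le_antisymm h3 (Complex.normSq_nonneg _)
  exact sub_eq_zero.mp (Complex.normSq_eq_zero.mp h4)

/-- A holomorphic function which is real-valued near a point has zero derivative there. -/
theorem deriv_eq_zero_of_im_eq_zero {g : ℂ → ℂ} {g' q : ℂ} (hg : HasDerivAt g g' q)
    (h : ∀ᶠ w in 𝓝 q, (g w).im = 0) : g' = 0 := by
  have h1 := hg.hasFDerivAt.restrictScalars ℝ
  have h2 := Complex.imCLM.hasFDerivAt.comp q h1
  have h3 : HasFDerivAt (fun w : ℂ => (g w).im) (0 : ℂ →L[ℝ] ℝ) q :=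
    (hasFDerivAt_const (0 : ℝ) q).congr_of_eventuallyEq (h.mono fun w hw => hw)
  have h4 := h2.unique h3
  have e1 := congrArg (fun L : ℂ →L[ℝ] ℝ => L 1) h4
  have e2 := congrArg (fun L : ℂ →L[ℝ] ℝ => L Complex.I) h4
  simp at e1 e2
  exact Complex.ext (by simpa using e2) (by simpa using e1)

/-- If `α + conj β` is constant on an open set, then `α' = β' = 0` there. -/
theorem deriv_eq_zero_of_add_conj_const {U : Set ℂ} (hU : IsOpen U) {α β : ℂ → ℂ} {α' β' q : ℂ}
    (hq : q ∈ U) (hα : HasDerivAt α α' q) (hβ : HasDerivAt β β' q) {c : ℂ}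
    (hc : ∀ w ∈ U, α w + conj (β w) = c) : α' = 0 ∧ β' = 0 := by
  have hev : ∀ᶠ w in 𝓝 q, w ∈ U := hU.mem_nhds hq
  -- `α - β - c = -(β + conj β)` is real-valued
  have h1 : α' - β' = 0 := by
    refine deriv_eq_zero_of_im_eq_zero (g := fun w => α w - β w - c) ((hα.sub hβ).sub_const c) ?_
    filter_upwards [hev] with w hw
    have := hc w hw
    have e : α w = c - conj (β w) := by rw [← this]; ring
    simp [e]
  -- `I * (α + β - c) = I * (β - conj β)` is real-valued
  have h2 : Complex.I * (α' + β') = 0 := by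
    refine deriv_eq_zero_of_im_eq_zero (g := fun w => Complex.I * (α w + β w - c))
      (((hα.add hβ).sub_const c).const_mul Complex.I) ?_
    filter_upwards [hev] with w hw
    have := hc w hw
    have e : α w = c - conj (β w) := by rw [← this]; ring
    simp [e]
  have h3 : α' + β' = 0 := by
    rcases mul_eq_zero.mp h2 with h | h
    · exact absurd h Complex.I_ne_zero
    · exact h
  constructor
  · linear_combination (1 / 2 : ℂ) * h1 + (1 / 2 : ℂ) * h3
  · linear_combination (1 / 2 : ℂ) * h3 - (1 / 2 : ℂ) * h1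

/-- `z ↦ -conj z` on the upper half plane. -/
noncomputable def mirror (z : ℍ) : ℍ := ⟨-(conj (z : ℂ)), by simpa using z.im_pos⟩

@[simp] theorem coe_mirror (z : ℍ) : ((mirror z : ℍ) : ℂ) = -(conj (z : ℂ)) := rfl

theorem mirror_mirror (z : ℍ) : mirror (mirror z) = z := by
  ext1; simp

theorem im_mirror (z : ℍ) : (mirror z).im = z.im := by
  change ((mirror z : ℍ) : ℂ).im = (z : ℂ).im; simp

theorem tendsto_mirror : Tendsto mirror atImInfty atImInfty := by
  rw [atImInfty, tendsto_comap_iff]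
  have : im ∘ mirror = im := funext im_mirror
  rw [this]; exact tendsto_comap

theorem mirror_smul (δ : SL(2, ℤ)) (z : ℍ) : mirror (δ • z) = (jConjSL δ) • mirror z := by
  ext1
  rw [coe_mirror, coe_specialLinearGroup_apply, coe_specialLinearGroup_apply, coe_mirror]
  simp only [jConjSL_coe, jConjMat_apply_zero_zero, jConjMat_apply_zero_one, jConjMat_apply_one_zero,
    jConjMat_apply_one_one, map_div₀, map_add, map_mul, Complex.conj_ofReal, map_neg,
    Complex.ofReal_neg]
  ring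

theorem mirror_vadd (x : ℝ) (z : ℍ) : mirror (x +ᵥ z) = (-x) +ᵥ mirror z := by
  ext1
  simp [coe_vadd]
  ring

theorem qParam_mirror (h : ℝ) (z : ℍ) : 𝕢 h (mirror z) = conj (𝕢 h z) := by
  simp only [Function.Periodic.qParam, coe_mirror, ← Complex.exp_conj]
  congr 1
  simp only [map_div₀, map_mul, Complex.conj_ofReal, Complex.conj_I, map_ofNat]
  ring

theorem half_le_im_of_mem_fd {w : ℍ} (hw : w ∈ 𝒟) : 1 / 2 ≤ w.im := by
  obtain ⟨h1, h2⟩ := hw
  have him : 0 < w.im := w.im_pos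
  rw [Complex.normSq_apply] at h1
  have h3 : (w : ℂ).re = w.re := rfl
  have h4 : (w : ℂ).im = w.im := rfl
  rw [h3, h4] at h1
  have h5 := abs_le.mp h2
  by_contra hcon
  push Not at hcon
  nlinarith

/-- A continuous function on `ℍ` with a limit at `i∞` either attains its maximum modulus over the
fundamental domain, or is bounded there by the modulus of its limit. -/
theorem exists_max_or_le_limit {v : ℍ → ℂ} (hv : Continuous v) {L : ℂ}
    (hL : Tendsto v atImInfty (𝓝 L)) :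
    (∃ w0 : ℍ, ∀ w ∈ 𝒟, ‖v w‖ ≤ ‖v w0‖) ∨ (∀ w ∈ 𝒟, ‖v w‖ ≤ ‖L‖) := by
  by_cases h : ∀ w ∈ 𝒟, ‖v w‖ ≤ ‖L‖
  · exact Or.inr h
  left
  push Not at h
  obtain ⟨w1, hw1, hw1L⟩ := h
  have hev : ∀ᶠ w in atImInfty, ‖v w‖ < ‖v w1‖ := hL.norm.eventually_lt_const hw1L
  obtain ⟨Y, hY⟩ := (atImInfty_mem _).mp hev
  let K : Set ℍ := {w | |w.re| ≤ 1 / 2 ∧ 1 / 2 ≤ w.im ∧ w.im ≤ Y}
  have hKc : IsCompact K := by
    have hK' : IsCompact (Set.Icc (-(1 / 2) : ℝ) (1 / 2) ×ℂ Set.Icc (1 / 2 : ℝ) Y) :=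
      isCompact_Icc.reProdIm isCompact_Icc
    have hsub : (Set.Icc (-(1 / 2) : ℝ) (1 / 2) ×ℂ Set.Icc (1 / 2 : ℝ) Y) ⊆ Set.range UpperHalfPlane.coe := by
      intro z hz
      have : 0 < z.im := by
        have := hz.2.1
        linarith
      exact ⟨⟨z, this⟩, rfl⟩
    have := (isEmbedding_coe.isInducing.isCompact_preimage_iff hsub).mpr hK'
    convert this using 1
    ext w
    simp only [K, Set.mem_ofPred_eq, Set.mem_preimage, Complex.mem_reProdIm, Set.mem_Icc, abs_le]
    constructor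
    · rintro ⟨⟨a, b⟩, c, d⟩; exact ⟨⟨a, b⟩, c, d⟩
    · rintro ⟨⟨a, b⟩, c, d⟩; exact ⟨⟨a, b⟩, c, d⟩
  have hw1K : w1 ∈ K := by
    refine ⟨hw1.2, half_le_im_of_mem_fd hw1, ?_⟩
    by_contra hcon
    push Not at hcon
    exact lt_irrefl _ (show ‖v w1‖ < ‖v w1‖ from hY w1 hcon.le)
  obtain ⟨w0, -, hw0⟩ := hKc.exists_isMaxOn ⟨w1, hw1K⟩ (hv.norm.continuousOn)
  refine ⟨w0, fun w hw => ?_⟩
  by_cases hwY : w.im ≤ Y
  · exact hw0 ⟨hw.2, half_le_im_of_mem_fd hw, hwY⟩
  · push Not at hwY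
    exact (show ‖v w‖ < ‖v w1‖ from hY w hwY.le).le.trans (hw0 hw1K)

/-- Global version: a continuous `Γ₀(N)`-invariant function with limits at all cusps attains its
maximum modulus either at a point, or as a cusp value. -/
theorem exists_global_max {N : ℕ} [NeZero N] {u : ℍ → ℂ} (hu : Continuous u)
    (hinv : ∀ γ ∈ Gamma0 N, ∀ z : ℍ, u (γ • z) = u z)
    (hlim : ∀ δ : SL(2, ℤ), ∃ L : ℂ, Tendsto (fun w : ℍ => u (δ • w)) atImInfty (𝓝 L)) :
    (∃ z0 : ℍ, ∀ z : ℍ, ‖u z‖ ≤ ‖u z0‖) ∨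
      (∃ (δ : SL(2, ℤ)) (L : ℂ), Tendsto (fun w : ℍ => u (δ • w)) atImInfty (𝓝 L) ∧
        ∀ z : ℍ, ‖u z‖ ≤ ‖L‖) := by
  classical
  -- coset representatives
  let rep : SL(2, ℤ) ⧸ Gamma0 N → SL(2, ℤ) := fun x => (Quotient.out x)⁻¹
  have hcont : ∀ δ : SL(2, ℤ), Continuous fun w : ℍ => u (δ • w) := fun δ =>
    hu.comp (continuous_const_smul (Matrix.SpecialLinearGroup.mapGL ℝ δ))
  -- for each coset, a bound on the fundamental domain
  have key : ∀ x : SL(2, ℤ) ⧸ Gamma0 N, ∃ m : ℝ, (∀ w ∈ 𝒟, ‖u (rep x • w)‖ ≤ m) ∧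
      ((∃ z0 : ℍ, m = ‖u z0‖) ∨ ∃ (δ : SL(2, ℤ)) (L : ℂ),
        Tendsto (fun w : ℍ => u (δ • w)) atImInfty (𝓝 L) ∧ m = ‖L‖) := by
    intro x
    obtain ⟨L, hL⟩ := hlim (rep x)
    rcases exists_max_or_le_limit (hcont (rep x)) hL with ⟨w0, hw0⟩ | h
    · exact ⟨‖u (rep x • w0)‖, hw0, Or.inl ⟨_, rfl⟩⟩
    · exact ⟨‖L‖, h, Or.inr ⟨rep x, L, hL, rfl⟩⟩
  choose m hm1 hm2 using key
  have : Finite (SL(2, ℤ) ⧸ Gamma0 N) := Subgroup.finite_quotient_of_finiteIndex
  obtain ⟨x0, hx0⟩ := Finite.exists_max m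
  have hbound : ∀ z : ℍ, ‖u z‖ ≤ m x0 := by
    intro z
    obtain ⟨g, hg⟩ := ModularGroup.exists_smul_mem_fd z
    -- `g = out x * γ`, so `g⁻¹ = γ⁻¹ * rep x`
    set x : SL(2, ℤ) ⧸ Gamma0 N := QuotientGroup.mk g with hx
    have hγ : (Quotient.out x)⁻¹ * g ∈ Gamma0 N := by
      rw [← QuotientGroup.eq]
      exact Quotient.out_eq x
    have hz : z = ((Quotient.out x)⁻¹ * g)⁻¹ • (rep x • (g • z)) := by
      simp only [rep, ← mul_smul]
      simp
    rw [hz, hinv _ (inv_mem hγ)]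
    exact (hm1 x _ hg).trans (hx0 x)
  rcases hm2 x0 with ⟨z0, hz0⟩ | ⟨δ, L, hL, hmL⟩
  · exact Or.inl ⟨z0, fun z => hz0 ▸ hbound z⟩
  · exact Or.inr ⟨δ, L, hL, fun z => hmL ▸ hbound z⟩


/-! ### The core: an invariant `A(z) + B(-conj z)` is constant -/

theorem continuous_mirror : Continuous mirror := by
  rw [isEmbedding_coe.continuous_iff]
  change Continuous fun z : ℍ => -(conj (z : ℂ))
  exact (Complex.continuous_conj.comp continuous_coe).neg

theorem mdiff_comp_smul {A : ℍ → ℂ} (hA : MDiff A) (δ : SL(2, ℤ)) :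
    MDiff (fun w : ℍ => A (δ • w)) := by
  have h : MDiff (fun τ : ℍ => (Matrix.SpecialLinearGroup.mapGL ℝ δ) • τ) :=
    mdifferentiable_smul (by simp)
  exact hA.comp h

theorem periodic_comp_ofComplex_of_vadd {f : ℍ → ℂ} {h : ℝ} (hf : ∀ w : ℍ, f (h +ᵥ w) = f w) :
    Function.Periodic (f ∘ ofComplex) h := by
  intro z
  by_cases hz : 0 < z.im
  · have hz' : 0 < (z + h).im := by simpa using hz
    simp only [Function.comp_apply, ofComplex_apply_of_im_pos hz, ofComplex_apply_of_im_pos hz']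
    rw [← hf ⟨z, hz⟩]
    congr 1
    ext1
    simp [coe_vadd]
    ring
  · have hz' : (z + h).im ≤ 0 := by simpa using not_lt.mp hz
    simp only [Function.comp_apply]
    rw [ofComplex_apply_eq_of_im_nonpos hz' (not_lt.mp hz)]

theorem const_of_invariant {N : ℕ} [NeZero N] {A B : ℍ → ℂ}
    (hA : MDiff A) (hB : MDiff B)
    (hAlim : ∀ δ : SL(2, ℤ), ∃ L : ℂ, Tendsto (fun w : ℍ => A (δ • w)) atImInfty (𝓝 L))
    (hBlim : ∀ δ : SL(2, ℤ), ∃ L : ℂ, Tendsto (fun w : ℍ => B (δ • w)) atImInfty (𝓝 L))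
    (hAper : ∀ (δ : SL(2, ℤ)) (w : ℍ), A (δ • ((N : ℝ) +ᵥ w)) = A (δ • w))
    (hBper : ∀ (δ : SL(2, ℤ)) (w : ℍ), B (δ • ((N : ℝ) +ᵥ w)) = B (δ • w))
    (hinv : ∀ γ ∈ Gamma0 N, ∀ z : ℍ, A (γ • z) + B (mirror (γ • z)) = A z + B (mirror z)) :
    ∃ c : ℂ, ∀ z : ℍ, A z + B (mirror z) = c := by
  have hNpos : (0 : ℝ) < N := Nat.cast_pos.mpr (NeZero.pos N)
  set u : ℍ → ℂ := fun z => A z + B (mirror z) with hu
  have hucont : Continuous u := hA.continuous.add (hB.continuous.comp continuous_mirror)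
  have hulim : ∀ δ : SL(2, ℤ), ∃ L : ℂ, Tendsto (fun w : ℍ => u (δ • w)) atImInfty (𝓝 L) := by
    intro δ
    obtain ⟨L1, hL1⟩ := hAlim δ
    obtain ⟨L2, hL2⟩ := hBlim (jConjSL δ)
    refine ⟨L1 + L2, ?_⟩
    have h2 : Tendsto (fun w : ℍ => B (mirror (δ • w))) atImInfty (𝓝 L2) := by
      have := hL2.comp tendsto_mirror
      refine this.congr fun w => ?_
      simp only [Function.comp_apply, mirror_smul]
    exact hL1.add h2
  rcases exists_global_max hucont hinv hulim with ⟨z0, hz0⟩ | ⟨δ, L, hL, hmaxL⟩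
  · -- interior maximum
    refine ⟨u z0, ?_⟩
    let α : ℂ → ℂ := A ∘ ofComplex
    let β : ℂ → ℂ := conj ∘ (fun w : ℂ => (B ∘ ofComplex) (-w)) ∘ conj
    have hval : ∀ z : ℍ, α z + conj (β z) = u z := by
      intro z
      simp only [α, β, Function.comp_apply, Complex.conj_conj, ofComplex_apply, hu]
      congr 2
      rw [← ofComplex_apply (mirror z)]
      rfl
    have hα : DifferentiableOn ℂ α {z : ℂ | 0 < z.im} := UpperHalfPlane.mdifferentiable_iff.mp hA
    have hBd : DifferentiableOn ℂ (B ∘ ofComplex) {z : ℂ | 0 < z.im} :=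
      UpperHalfPlane.mdifferentiable_iff.mp hB
    have hβ : DifferentiableOn ℂ β {z : ℂ | 0 < z.im} := by
      intro z hz
      refine DifferentiableAt.differentiableWithinAt ?_
      rw [differentiableAt_conj_conj_iff]
      have hz' : -(conj z) ∈ {z : ℂ | 0 < z.im} := by simpa using hz
      have h1 : DifferentiableAt ℂ (B ∘ ofComplex) (-(conj z)) :=
        (hBd _ hz').differentiableAt (isOpen_upperHalfPlaneSet.mem_nhds hz')
      exact h1.comp (conj z) differentiable_neg.differentiableAt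
    have hmax : ∀ q ∈ {z : ℂ | 0 < z.im}, ‖α q + conj (β q)‖ ≤ ‖α z0 + conj (β z0)‖ := by
      intro q hq
      have := hval ⟨q, hq⟩
      rw [hval z0]
      change ‖α ((⟨q, hq⟩ : ℍ) : ℂ) + conj (β ((⟨q, hq⟩ : ℍ) : ℂ))‖ ≤ _
      rw [this]
      exact hz0 _
    have hres := harmonic_max isOpen_upperHalfPlaneSet
      (convex_halfSpace_im_gt 0).isPreconnected hα hβ z0.im_pos hmax
    intro z
    have := hres z z.im_pos
    rw [hval z, hval z0] at this
    exact this
  · -- maximum at a cusp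
    refine ⟨L, ?_⟩
    set A1 : ℍ → ℂ := fun w => A (δ • w) with hA1
    set B1 : ℍ → ℂ := fun w => B (jConjSL δ • w) with hB1
    obtain ⟨LA, hLA⟩ := hAlim δ
    obtain ⟨LB, hLB⟩ := hBlim (jConjSL δ)
    have hA1per : Function.Periodic (A1 ∘ ofComplex) N :=
      periodic_comp_ofComplex_of_vadd (fun w => hAper δ w)
    have hB1per : Function.Periodic (B1 ∘ ofComplex) N :=
      periodic_comp_ofComplex_of_vadd (fun w => hBper (jConjSL δ) w)
    have hA1d : MDiff A1 := mdiff_comp_smul hA δ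
    have hB1d : MDiff B1 := mdiff_comp_smul hB (jConjSL δ)
    have hA1b : IsBoundedAtImInfty A1 := hLA.isBigO_one ℝ
    have hB1b : IsBoundedAtImInfty B1 := hLB.isBigO_one ℝ
    let α : ℂ → ℂ := cuspFunction N A1
    let β₀ : ℂ → ℂ := cuspFunction N B1
    let β : ℂ → ℂ := conj ∘ β₀ ∘ conj
    have hαd : DifferentiableOn ℂ α (Metric.ball 0 1) :=
      differentiableOn_cuspFunction_ball hNpos hA1per hA1d hA1b
    have hβ₀d : DifferentiableOn ℂ β₀ (Metric.ball 0 1) :=
      differentiableOn_cuspFunction_ball hNpos hB1per hB1d hB1b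
    have hβd : DifferentiableOn ℂ β (Metric.ball 0 1) := by
      intro q hq
      refine DifferentiableAt.differentiableWithinAt ?_
      rw [differentiableAt_conj_conj_iff]
      have hq' : conj q ∈ Metric.ball (0 : ℂ) 1 := by
        simpa [Complex.norm_conj] using hq
      exact (hβ₀d _ hq').differentiableAt (Metric.isOpen_ball.mem_nhds hq')
    have hα0 : α 0 = LA := by
      have h1 := cuspFunction_apply_zero hNpos
        (analyticAt_cuspFunction_zero hNpos hA1per hA1d hA1b) hA1per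
      exact h1.trans hLA.limUnder_eq
    have hβ0 : β₀ 0 = LB := by
      have h1 := cuspFunction_apply_zero hNpos
        (analyticAt_cuspFunction_zero hNpos hB1per hB1d hB1b) hB1per
      exact h1.trans hLB.limUnder_eq
    have hLsum : L = LA + LB := by
      have h2 : Tendsto (fun w : ℍ => u (δ • w)) atImInfty (𝓝 (LA + LB)) := by
        have h3 : Tendsto (fun w : ℍ => B (mirror (δ • w))) atImInfty (𝓝 LB) := by
          have := hLB.comp tendsto_mirror
          refine this.congr fun w => ?_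
          simp only [Function.comp_apply, mirror_smul]
        exact hLA.add h3
      exact tendsto_nhds_unique hL h2
    have hval0 : α 0 + conj (β 0) = L := by
      simp only [β, Function.comp_apply, Complex.conj_conj, map_zero, hα0, hβ0, hLsum]
    have hval : ∀ z : ℍ, α (𝕢 N z) + conj (β (𝕢 N z)) = u (δ • z) := by
      intro z
      simp only [β, Function.comp_apply, Complex.conj_conj]
      rw [← qParam_mirror]
      have e1 : α (𝕢 N z) = A1 z := eq_cuspFunction z hNpos.ne' hA1per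
      have e2 : β₀ (𝕢 N (mirror z)) = B1 (mirror z) := eq_cuspFunction (mirror z) hNpos.ne' hB1per
      rw [e1, e2, hu]
      simp only [hA1, hB1, mirror_smul]
    have hmax : ∀ q ∈ Metric.ball (0 : ℂ) 1, ‖α q + conj (β q)‖ ≤ ‖α 0 + conj (β 0)‖ := by
      intro q hq
      rw [hval0]
      by_cases hq0 : q = 0
      · rw [hq0, hval0]
      · have hq1 : ‖q‖ < 1 := by simpa using hq
        have him := Function.Periodic.im_invQParam_pos_of_norm_lt_one hNpos hq1 hq0
        have hqq := Function.Periodic.qParam_right_inv hNpos.ne' hq0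
        have := hval ⟨_, him⟩
        change α (𝕢 N (Function.Periodic.invQParam N q)) + _ = _ at this
        rw [hqq] at this
        rw [this]
        exact hmaxL _
    have hres := harmonic_max Metric.isOpen_ball (convex_ball (0 : ℂ) 1).isPreconnected hαd hβd
      (Metric.mem_ball_self one_pos) hmax
    intro z
    have hz : z = δ • (δ⁻¹ • z) := by simp
    have h1 := hres (𝕢 N ((δ⁻¹ • z : ℍ) : ℂ)) (by
      simpa using Function.Periodic.norm_qParam_lt_one hNpos (δ⁻¹ • z).im_pos)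
    rw [hval, hval0, ← hz] at h1
    exact h1

/-! ### Application to Eichler primitives -/

/-- Translates of an equivariant primitive are `N`-periodic. -/
theorem primitive_smul_vadd {N : ℕ} [NeZero N] {f : CuspForm (Gamma0 N) 2} {F : ℍ → ℂ}
    (hF : HasEquivariantPrimitive N f F) (δ : SL(2, ℤ)) (w : ℍ) :
    F (δ • ((N : ℝ) +ᵥ w)) = F (δ • w) := by
  obtain ⟨-, -, heq, hlim⟩ := hF
  obtain ⟨L, hL⟩ := hlim δ
  have hT : ModularGroup.T ^ (N : ℤ) ∈ Gamma N := by
    simpa using ModularGroup_T_pow_mem_Gamma (N : ℤ) (N : ℤ) dvd_rfl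
  have hγ : δ * ModularGroup.T ^ (N : ℤ) * δ⁻¹ ∈ Gamma0 N := by
    have h1 : δ * ModularGroup.T ^ (N : ℤ) * δ⁻¹ ∈ Gamma N := (Gamma_normal N).conj_mem _ hT δ
    rw [Gamma_mem] at h1
    rw [Gamma0_mem]
    exact h1.2.2.1
  obtain ⟨c, hc⟩ := heq ⟨_, hγ⟩
  have hshift : ∀ w : ℍ, F (δ • ((N : ℝ) +ᵥ w)) - F (δ • w) = c := by
    intro w
    have := hc (δ • w)
    rw [← this]
    congr 2
    have h2 := modular_T_zpow_smul w (N : ℤ)
    simp only [Int.cast_natCast] at h2
    rw [← h2]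
    simp [mul_smul]
  have htend : Tendsto (fun w : ℍ => F (δ • ((N : ℝ) +ᵥ w)) - F (δ • w)) atImInfty
      (𝓝 (L - L)) := by
    have h1 : Tendsto (fun w : ℍ => (N : ℝ) +ᵥ w) atImInfty atImInfty := by
      rw [atImInfty, tendsto_comap_iff]
      have : im ∘ (fun w : ℍ => (N : ℝ) +ᵥ w) = im := by
        funext w; simp [vadd_im]
      rw [this]; exact tendsto_comap
    exact (hL.comp h1).sub hL
  have hc0 : c = 0 := by
    have h2 : Tendsto (fun w : ℍ => F (δ • ((N : ℝ) +ᵥ w)) - F (δ • w)) atImInfty (𝓝 c) := by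
      simp only [hshift]; exact tendsto_const_nhds
    have := tendsto_nhds_unique h2 htend
    simpa using this
  have := hshift w
  rw [hc0] at this
  exact sub_eq_zero.mp this

/-- **Eichler–Shimura injectivity, harmonic form.** If `A`, `B` are the Eichler primitives of
weight-2 cusp forms `a`, `b` and `A(z) + B(-conj z)` is `Γ₀(N)`-invariant, then `a = b = 0`. -/
theorem eq_zero_of_invariant {N : ℕ} [NeZero N] {a b : CuspForm (Gamma0 N) 2} {A B : ℍ → ℂ}
    (hA : HasEquivariantPrimitive N a A) (hB : HasEquivariantPrimitive N b B)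
    (hinv : ∀ γ ∈ Gamma0 N, ∀ z : ℍ, A (γ • z) + B (mirror (γ • z)) = A z + B (mirror z)) :
    a = 0 ∧ b = 0 := by
  have hAd : MDiff A := UpperHalfPlane.mdifferentiable_iff.mpr fun z hz =>
    (hA.1 ⟨z, hz⟩).differentiableAt.differentiableWithinAt
  have hBd : MDiff B := UpperHalfPlane.mdifferentiable_iff.mpr fun z hz =>
    (hB.1 ⟨z, hz⟩).differentiableAt.differentiableWithinAt
  obtain ⟨c, hc⟩ := const_of_invariant hAd hBd hA.2.2.2 hB.2.2.2 (primitive_smul_vadd hA)
    (primitive_smul_vadd hB) hinv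
  have key : ∀ τ : ℍ, a τ = 0 ∧ b (mirror τ) = 0 := by
    intro τ
    let β : ℂ → ℂ := conj ∘ ((B ∘ ofComplex) ∘ Neg.neg) ∘ conj
    have hβ : HasDerivAt β (conj (b (mirror τ) * (-1))) τ := by
      have h1 : HasDerivAt ((B ∘ ofComplex) ∘ Neg.neg) (b (mirror τ) * (-1)) (conj (τ : ℂ)) := by
        have h2 : HasDerivAt (B ∘ ofComplex) (b (mirror τ)) (-(conj (τ : ℂ))) := hB.1 (mirror τ)
        exact h2.comp (conj (τ : ℂ)) (hasDerivAt_neg _)
      have h3 := h1.conj_conj
      rwa [Complex.conj_conj] at h3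
    have hconst : ∀ w ∈ {z : ℂ | 0 < z.im}, (A ∘ ofComplex) w + conj (β w) = c := by
      intro w hw
      have := hc ⟨w, hw⟩
      simp only [β, Function.comp_apply, Complex.conj_conj, ofComplex_apply_of_im_pos hw]
      rw [← this]
      congr 2
      rw [← ofComplex_apply (mirror ⟨w, hw⟩)]
      rfl
    have := deriv_eq_zero_of_add_conj_const isOpen_upperHalfPlaneSet τ.im_pos (hA.1 τ) hβ hconst
    refine ⟨this.1, ?_⟩
    have h2 := this.2
    simpa using h2
  constructor
  · ext τ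
    simpa using (key τ).1
  · ext τ
    have := (key (mirror τ)).2
    rw [mirror_mirror] at this
    simpa using this

end Fermat.Agent.S21.Harmonic
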