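import Mathlib

/-!
# Orbit count for an element of prime order (Burnside)

If `g ^ p` acts trivially on a finite set `X` (`p` prime), then
`p * #(orbits of ⟨g⟩) = #X + (p - 1) * #(fixed points of g)`.
-/

namespace Fermat.Agent.S21.OrbitCount

open MulAction Subgroup

/-- The orbit relation of `zpowers g` only depends on the permutation induced by `g`. -/
theorem orbitRel_zpowers_toPerm {G : Type*} [Group G] {X : Type*} [MulAction G X] (g : G)
    (a b : X) :
    (orbitRel (zpowers g) X) a b ↔
      (orbitRel (zpowers (MulAction.toPerm g : Equiv.Perm X)) X) a b := by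
  rw [orbitRel_apply, orbitRel_apply, mem_orbit_iff, mem_orbit_iff]
  constructor
  · rintro ⟨⟨x, hx⟩, rfl⟩
    obtain ⟨k, rfl⟩ := Subgroup.mem_zpowers_iff.mp hx
    refine ⟨⟨(MulAction.toPerm g : Equiv.Perm X) ^ k, zpow_mem_zpowers _ k⟩, ?_⟩
    change ((MulAction.toPerm g : Equiv.Perm X) ^ k) b = g ^ k • b
    rw [← MulAction.toPermHom_apply, ← map_zpow]
    rfl
  · rintro ⟨⟨x, hx⟩, rfl⟩
    obtain ⟨k, rfl⟩ := Subgroup.mem_zpowers_iff.mp hx
    refine ⟨⟨g ^ k, zpow_mem_zpowers _ k⟩, ?_⟩
    change g ^ k • b = ((MulAction.toPerm g : Equiv.Perm X) ^ k) b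
    rw [← MulAction.toPermHom_apply, ← map_zpow]
    rfl

theorem card_orbits_zpowers_toPerm {G : Type*} [Group G] {X : Type*} [MulAction G X] (g : G) :
    Nat.card (orbitRel.Quotient (zpowers g) X) =
      Nat.card (orbitRel.Quotient (zpowers (MulAction.toPerm g : Equiv.Perm X)) X) :=
  Nat.card_congr (Quotient.congr (Equiv.refl X) (fun a b => orbitRel_zpowers_toPerm g a b))

theorem prime_mul_card_orbits {G : Type*} [Group G] {X : Type*} [MulAction G X] [Finite X]
    (g : G) (p : ℕ) (hp : p.Prime) (hg : ∀ x : X, g ^ p • x = x) :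
    p * Nat.card (MulAction.orbitRel.Quotient (Subgroup.zpowers g) X) =
      Nat.card X + (p - 1) * Nat.card (MulAction.fixedBy X g) := by
  classical
  set σ : Equiv.Perm X := MulAction.toPerm g with hσ
  have hσp : σ ^ p = 1 := by
    ext x
    have : (σ ^ p) x = g ^ p • x := by
      rw [hσ, ← MulAction.toPermHom_apply, ← map_pow]; rfl
    rw [this, hg x]; rfl
  rw [card_orbits_zpowers_toPerm g]
  have hcard : Nat.card (zpowers σ) = 1 ∨ Nat.card (zpowers σ) = p := by
    rw [Nat.card_zpowers]
    exact (Nat.dvd_prime hp).mp (orderOf_dvd_of_pow_eq_one hσp)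
  have hfixσ : (fixedBy X σ : Set X) = fixedBy X g := by
    ext x; simp [mem_fixedBy, hσ]
  have hfix : ∀ a : zpowers σ, a ≠ 1 → (fixedBy X a : Set X) = fixedBy X g := by
    intro a ha
    have hc : Nat.card (zpowers σ) = p := by
      rcases hcard with h1 | h1
      · exfalso
        haveI : Subsingleton (zpowers σ) := (Nat.card_eq_one_iff_unique.mp h1).1
        exact ha (Subsingleton.elim _ _)
      · exact h1
    haveI : Fact p.Prime := ⟨hp⟩
    have hmem : (⟨σ, mem_zpowers σ⟩ : zpowers σ) ∈ zpowers a := mem_zpowers_of_prime_card hc ha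
    obtain ⟨j, hj⟩ := Subgroup.mem_zpowers_iff.mp hmem
    obtain ⟨k, hk⟩ := Subgroup.mem_zpowers_iff.mp a.2
    rw [← hfixσ]
    ext x
    constructor
    · intro hx
      have := mem_fixedBy_zpow hx j
      rw [hj] at this
      exact this
    · intro hx
      have := mem_fixedBy_zpow hx k
      rw [hk] at this
      exact this
  haveI : Fintype X := Fintype.ofFinite X
  haveI : Fintype (zpowers σ) := Fintype.ofFinite _
  haveI : Fintype (orbitRel.Quotient (zpowers σ) X) := Fintype.ofFinite _
  have hB := MulAction.sum_card_fixedBy_eq_card_orbits_mul_card_group (zpowers σ) X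
  have h1 : Fintype.card (fixedBy X (1 : zpowers σ)) = Nat.card X := by
    rw [Fintype.card_eq_nat_card]
    exact Nat.card_congr (Equiv.subtypeUnivEquiv (fun x => by simp [mem_fixedBy]))
  have h2 : ∀ a ∈ (Finset.univ.erase (1 : zpowers σ)),
      Fintype.card (fixedBy X a) = Nat.card (fixedBy X g) := by
    intro a ha
    rw [Fintype.card_eq_nat_card, hfix a (Finset.ne_of_mem_erase ha)]
  rw [← Finset.add_sum_erase Finset.univ _ (Finset.mem_univ (1 : zpowers σ)), h1,
    Finset.sum_congr rfl h2, Finset.sum_const, Finset.card_erase_of_mem (Finset.mem_univ _),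
    Finset.card_univ, smul_eq_mul, Fintype.card_eq_nat_card, Fintype.card_eq_nat_card] at hB
  rcases hcard with h | h
  · rw [h] at hB
    have hσ1 : σ = 1 := by
      rw [← orderOf_eq_one_iff, ← Nat.card_zpowers]; exact h
    have hall : Nat.card (fixedBy X g) = Nat.card X := by
      rw [← hfixσ, hσ1]
      exact Nat.card_congr (Equiv.subtypeUnivEquiv (fun x => by simp [mem_fixedBy]))
    rw [hall]
    simp only [le_refl, Nat.sub_self, zero_mul, add_zero, mul_one] at hB
    rw [← hB]
    obtain ⟨q, rfl⟩ : ∃ q, p = q + 1 := ⟨p - 1, (Nat.succ_pred_eq_of_pos hp.pos).symm⟩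
    simp only [Nat.add_sub_cancel]
    ring
  · rw [h] at hB
    rw [hB]
    ring

end Fermat.Agent.S21.OrbitCount
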